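/-
PROGRAM DS (S48) / G1, AREA P = PRODUCER + KUMMER ROOTS (sub-captain helper13): THE OBJECTS of
the producer at level `Γ₁(M)`.  Definitions only (FROZEN once landed; nobody edits this file
except helper13).

Function-field side (`S48/G1/F1/Defs.lean`, ruling R1): `F1 M ⊆ ℚ̄((q))`, the coordinate ring
`A01 M`, the coefficientwise Galois action `galF1 M`.
Betti side (`S48/Betti1`, landed): `A1 M = Γ₁(M)^ab / ⟨parabolic, elliptic⟩`, `proj`,
`tau1 M hℓ hℓM`, `dia1 M u`, the period map `period1 M`.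

* `Objs M`          : THE ANALYTIC OBJECTS attached to `F1 M` — the avatar map
                      `θ : A01 M →+* HolH` (`q`-expansion `HasQ`, `Γ₁(M)`-invariance) and the
                      diamond automorphisms `dia u : F1 M ≃ₐ[ℚ̄] F1 M` (`θ (dia u x) = θ x ∘ γ`
                      for every `γ ∈ Γ₀(M)` with lower right entry `≡ u`; commutation with the
                      Galois action).  `Nonempty (Objs M)` (`2 ≤ M`) is the exit of area F
                      (rows F.1 + F.3); every other brick is stated for an ARBITRARY `O : Objs M`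
                      (the fields determine `θ` and `dia` uniquely), so that no brick waits for
                      the construction.
* `heckeF1 O ℓ`     : the multiplicative Hecke operator with diamond on `F1 M`,
                      `(T_ℓ f)(q) = (⟨ℓ⟩f)(q^ℓ) · ∏_{i<ℓ} f(ζⁱ q^{1/ℓ})`
                      (`CongrD.heckeMul2`; junk `1` unless `ℓ ∤ M` is prime and the series lies in
                      `F1 M`, which is the brick `Bricks1.Closed1`).
* `tauOp M ℓ`       : `Betti1.tau1` as a total family (junk `0`).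
* `chi1 M m c`      : the `μ_m`-valued character of `Γ₁(M)` attached to `c : A1 M →+ ℤ/m`.
* `IsRoot1 O m a b H` : `H ^ m = θ a · θ b ^ (m - 1)`  (holomorphic `m`-th root of `a / b`).
* `KRel1 O m f c`   : the Kummer relation: `f ≠ 0`, `m ∣ div f` (all places of `F1 M / ℚ̄`),
                      and `f = a / b` has a root `H` with multiplier `chi1 M m c` under `Γ₁(M)`.

CONVENTIONS (as in `G1/Contract.lean`): `⟨u⟩ f = f ∘ γ_u`, `γ_u ∈ Γ₀(M)` with LOWER RIGHT entry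
`≡ u`; `compSL γ W = W ∘ γ`.
-/
import Mathlib
import Fermat.Agent.S48.G1.F1.Defs
import Fermat.Agent.S48.G1.Ops
import Fermat.Agent.S48.Betti1.Gamma1Adj
import Fermat.Agent.S48.ExitDPlaces
import Fermat.Agent.S30.Producer.Objects

set_option autoImplicit false

noncomputable section

open scoped MatrixGroups
open CongruenceSubgroup ModularCurve AlgebraicCurve UpperHalfPlane
open Fermat.Agent.S24.HolH Fermat.Agent.S24.Theta
open Fermat.Agent.S48.G1.F1

namespace Fermat.Agent.S48.G1.Producer1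

/-- **The analytic objects attached to the function field `F1 M`** (exit of area F). -/
structure Objs (M : ℕ) where
  /-- the avatar map: the holomorphic function on `ℍ` with the given `q`-expansion -/
  θ : A01 M →+* HolH
  hasQ : ∀ x : A01 M,
    HasQ iotaBar (((x : F1 M) : LaurentSeries Qb)) ((θ x : HolH) : ℍ → ℂ)
  /-- the avatars are `Γ₁(M)`-invariant -/
  inv : ∀ γ : SL(2, ℤ), γ ∈ Gamma1 M → ∀ x : A01 M, compSL γ (θ x) = θ x
  /-- the diamond automorphisms `⟨u⟩ f = f ∘ γ_u` -/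
  dia : (ZMod M)ˣ → (F1 M ≃ₐ[Qb] F1 M)
  dia_spec : ∀ (u : (ZMod M)ˣ) (x : A01 M), ∃ y : A01 M, dia u (x : F1 M) = (y : F1 M) ∧
    ∀ γ : SL(2, ℤ), γ ∈ Gamma0 M → ((γ 1 1 : ℤ) : ZMod M) = (u : ZMod M) →
      θ y = compSL γ (θ x)
  /-- the diamonds commute with the coefficientwise Galois action -/
  dia_gal : ∀ (u : (ZMod M)ˣ) (σ : GQ1) (x : F1 M),
    dia u (galF1 M σ x) = galF1 M σ (dia u x)

/-- The class of a prime `ℓ ∤ M` in `(ℤ/M)ˣ` (`= Hecke1.primeUnit = Gamma1Coset.unitOf`). -/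
abbrev unitL {M ℓ : ℕ} (hℓ : ℓ.Prime) (hℓM : ¬ ℓ ∣ M) : (ZMod M)ˣ :=
  Fermat.Agent.S48.Hecke1.primeUnit hℓ hℓM

/-- The fixed primitive `ℓ`-th root of unity of `ℚ̄` (`S30.Producer.zeta`). -/
abbrev zetaL (ℓ : ℕ) : Qbˣ := Fermat.Agent.S30.Producer.zeta ℓ

/-- The formal Hecke series `(⟨ℓ⟩f)(q^ℓ) · ∏_{i<ℓ} f(ζⁱ q^{1/ℓ})` of `f ∈ F1 M`. -/
def heckeSeries1 {M : ℕ} (O : Objs M) {ℓ : ℕ} (hℓ : ℓ.Prime) (hℓM : ¬ ℓ ∣ M) (f : F1 M) :
    LaurentSeries Qb :=
  Fermat.Agent.S48.CongrD.heckeMul2 ℓ hℓ.pos (zetaL ℓ) (f : LaurentSeries Qb)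
    ((O.dia (unitL hℓ hℓM) f : F1 M) : LaurentSeries Qb)

open Classical in
/-- **The multiplicative Hecke operator with diamond** on `F1 M` (junk `1` unless `ℓ ∤ M` is
prime and the Hecke series lies in `F1 M`: brick `Bricks1.Closed1`). -/
def heckeF1 {M : ℕ} (O : Objs M) (ℓ : ℕ) (f : F1 M) : F1 M :=
  if h : ∃ (hℓ : ℓ.Prime) (hℓM : ¬ ℓ ∣ M), heckeSeries1 O hℓ hℓM f ∈ F1 M
  then ⟨_, h.choose_spec.choose_spec⟩ else 1

theorem coe_heckeF1 {M : ℕ} (O : Objs M) {ℓ : ℕ} (hℓ : ℓ.Prime) (hℓM : ¬ ℓ ∣ M) (f : F1 M)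
    (h : heckeSeries1 O hℓ hℓM f ∈ F1 M) :
    ((heckeF1 O ℓ f : F1 M) : LaurentSeries Qb) = heckeSeries1 O hℓ hℓM f := by
  have hex : ∃ (hℓ : ℓ.Prime) (hℓM : ¬ ℓ ∣ M), heckeSeries1 O hℓ hℓM f ∈ F1 M := ⟨hℓ, hℓM, h⟩
  unfold heckeF1
  rw [dif_pos hex]

/-! ### The Betti side -/

/-- `A₁(M) = Γ₁(M)^ab / ⟨parabolic, elliptic⟩` (`Betti1.A1`). -/
abbrev A1 (M : ℕ) : Type := Fermat.Agent.S48.Betti1.A1 M

/-- The projection `Γ₁(M) → A₁(M)`. -/
abbrev proj1 (M : ℕ) : Additive (Gamma1 M) →+ A1 M := Fermat.Agent.S48.Betti1.proj (Gamma1 M)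

open Classical in
/-- The Hecke correspondences on `A₁(M)` as a total family (junk `0`). -/
def tauOp (M : ℕ) [NeZero M] (ℓ : ℕ) : A1 M →+ A1 M :=
  if h : ℓ.Prime ∧ ¬ ℓ ∣ M then Fermat.Agent.S48.Betti1.tau1 M h.1 h.2 else 0

theorem tauOp_eq (M : ℕ) [NeZero M] {ℓ : ℕ} (hℓ : ℓ.Prime) (hℓM : ¬ ℓ ∣ M) :
    tauOp M ℓ = Fermat.Agent.S48.Betti1.tau1 M hℓ hℓM :=
  dif_pos ⟨hℓ, hℓM⟩

/-- The diamond automorphisms of `A₁(M)` (`Betti1.dia1`: conjugation by `diamondRep M u`). -/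
abbrev diaOp (M : ℕ) [NeZero M] (u : (ZMod M)ˣ) : A1 M →+ A1 M :=
  Fermat.Agent.S48.Betti1.dia1 M u

/-- The `μ_m`-valued character of `Γ₁(M)` attached to `c : A₁(M) →+ ℤ/m`. -/
def chi1 (M m : ℕ) [NeZero m] (c : A1 M →+ ZMod m) (γ : Gamma1 M) : ℂ :=
  ZMod.stdAddChar (c (proj1 M (Additive.ofMul γ)))

theorem chi1_zero (M m : ℕ) [NeZero m] (γ : Gamma1 M) : chi1 M m 0 γ = 1 := by
  simp [chi1]

theorem chi1_add (M m : ℕ) [NeZero m] (c d : A1 M →+ ZMod m) (γ : Gamma1 M) :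
    chi1 M m (c + d) γ = chi1 M m c γ * chi1 M m d γ := by
  simp [chi1, AddChar.map_add_eq_mul]

theorem chi1_mul (M m : ℕ) [NeZero m] (c : A1 M →+ ZMod m) (γ δ : Gamma1 M) :
    chi1 M m c (γ * δ) = chi1 M m c γ * chi1 M m c δ := by
  simp [chi1, AddChar.map_add_eq_mul]

theorem chi1_injective (M m : ℕ) [NeZero m] {c d : A1 M →+ ZMod m}
    (h : ∀ γ : Gamma1 M, chi1 M m c γ = chi1 M m d γ) : c = d :=
  Fermat.Agent.S48.Betti1.hom_ext fun γ => ZMod.injective_stdAddChar (h γ)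

/-! ### The Kummer relation -/

/-- `H` is a holomorphic `m`-th root of `a / b`: `H ^ m = θ a · θ b ^ (m - 1)`. -/
def IsRoot1 {M : ℕ} (O : Objs M) (m : ℕ) (a b : A01 M) (H : HolH) : Prop :=
  H ^ m = O.θ a * O.θ b ^ (m - 1)

/-- `m ∣ div f`: the order of `f` at every place of `F1 M / ℚ̄` is divisible by `m`
(`ExitD.DivBy`). -/
abbrev DivBy1 (M m : ℕ) (f : F1 M) : Prop := Fermat.Agent.S48.ExitD.DivBy (F1 M) m f

/-- **The Kummer relation at level `Γ₁(M)`**: `f ≠ 0`, `m ∣ div f`, and `f = a / b`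
(`a b : A01 M`) has a holomorphic `m`-th root on `ℍ` whose multiplier under `Γ₁(M)` is
`chi1 M m c`. -/
def KRel1 {M : ℕ} (O : Objs M) (m : ℕ) [NeZero m] (f : F1 M) (c : A1 M →+ ZMod m) : Prop :=
  f ≠ 0 ∧ DivBy1 M m f ∧
    ∃ (a b : A01 M) (H : HolH), a ≠ 0 ∧ b ≠ 0 ∧ f * (b : F1 M) = (a : F1 M) ∧
      IsRoot1 O m a b H ∧
      ∀ γ : Gamma1 M, Fermat.Agent.S30.KummerChar.mult (γ : SL(2, ℤ)) H = chi1 M m c γ

end Fermat.Agent.S48.G1.Producer1
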