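/-
PROGRAM DS (S48) / G1, AREA P = PRODUCER + KUMMER ROOTS (sub-captain helper13): THE BRICK
INTERFACE at level `Γ₁(M)`.  One `Prop` per deliverable; NO proof in this file (FROZEN once
landed; nobody edits it except helper13).  Owners prove `theorem foo ... : Bricks1.Foo ...` in
THEIR OWN file (importing this one).  `Producer1/Assembly1.lean` proves
`Nonempty (ES1Data M p (Ops.Top M) (Ops.Dop M))` from these Props (through helper162's generic
`G1/Glue1.lean` and helper78's `G1/ToES1Quot.lean`).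

ALL bricks are needed (and true) only for `2 ≤ M`: for `M = 1` the series `gq 1 0` is not a
modular function (review of helper249), and the producer exit at `M = 1` is the EMPTY datum
(`Bricks1.LevelOne`).  So owners prove e.g.
  `theorem root1 (M : ℕ) [NeZero M] (hM : 2 ≤ M) (O : Objs M) : Bricks1.Root1 O`.

Every brick about roots is stated for an ARBITRARY `O : Objs M` (`Producer1/Objects1.lean`): the
fields of `Objs` determine `O.θ` and `O.dia` uniquely, and owners may use the fields directly.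

Notation: `IsRoot1 O m a b H : H ^ m = O.θ a * O.θ b ^ (m - 1)`; `mult γ H` = multiplier of `H`
(`S30.KummerChar.mult`); `DivBy1 M m f : ∀ P : Place ℚ̄ (F1 M), m ∣ P.ord f`;
`heckeSeries1 O hℓ hℓM f = heckeMul2 ℓ _ ζ f (O.dia ⟨ℓ⟩ f) = (⟨ℓ⟩f)(q^ℓ) · ∏_{i<ℓ} f(ζⁱ q^{1/ℓ})`.
-/
import Mathlib
import Fermat.Agent.S48.G1.Producer1.Objects1

set_option autoImplicit false

noncomputable section

open scoped MatrixGroups
open CongruenceSubgroup ModularCurve AlgebraicCurve UpperHalfPlane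
open Fermat.Agent.S24.HolH Fermat.Agent.S24.Theta
open Fermat.Agent.S30.KummerChar
open Fermat.Agent.S48.G1.F1

namespace Fermat.Agent.S48.G1.Producer1.Bricks1

/-! ### Area F: objects and generic facts about `F1 M` -/

/-- (F.1 + F.3) **The analytic objects exist**: the avatar map `θ` (every element of `A01 M` is
the `q`-expansion of a `Γ₁(M)`-invariant holomorphic function on `ℍ`) and the diamond
automorphisms of `F1 M` commuting with the Galois action. -/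
def ObjsEx (M : ℕ) : Prop := Nonempty (Objs M)

/-- (F.3) `F1 M` is the field of fractions of `A01 M`. -/
def Frac1 (M : ℕ) : Prop :=
  ∀ f : F1 M, ∃ a b : A01 M, b ≠ 0 ∧ f * (b : F1 M) = (a : F1 M)

/-- (F.3) Every function of `F1 M` is fixed by an open subgroup of `G_ℚ`. -/
def Cont1 (M : ℕ) : Prop :=
  ∀ f : F1 M, ∃ L : IntermediateField ℚ Qb, FiniteDimensional ℚ L ∧
    ∀ σ : GQ1, (∀ x ∈ L, σ x = x) → galF1 M σ f = f

/-- (F.4) `T_ℓ` (with diamond in the `q ^ ℓ` factor) preserves `F1 M` and `m ∣ div`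
(`ExitD.HeckeClosed2` for the place setting of `F1Q M`, `d₁ = id`, `d₂ = ⟨ℓ⟩`). -/
def Closed1 {M : ℕ} (O : Objs M) : Prop :=
  ∀ (ℓ : ℕ) (hℓ : ℓ.Prime) (hℓM : ¬ ℓ ∣ M),
    Fermat.Agent.S48.ExitD.HeckeClosed2 (Fermat.Agent.S48.ExitD.placeSetting (F1Q M)) ℓ hℓ.pos
      (zetaL ℓ) (RingHom.id (F1 M))
      ((O.dia (unitL hℓ hℓM) : F1 M ≃ₐ[Qb] F1 M) : F1 M →+* F1 M)

/-- (formal) The Hecke series commutes with the coefficientwise Galois action (independence of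
the primitive root of unity). -/
def HeckeGal2 : Prop :=
  ∀ (ℓ : ℕ) (hℓ : ℓ.Prime) (σ : GQ1) (x y : LaurentSeries Qb),
    Fermat.Agent.S48.CongrD.heckeMul2 ℓ hℓ.pos (zetaL ℓ) (coeffMap (σ : Qb →+* Qb) x)
        (coeffMap (σ : Qb →+* Qb) y) =
      coeffMap (σ : Qb →+* Qb) (Fermat.Agent.S48.CongrD.heckeMul2 ℓ hℓ.pos (zetaL ℓ) x y)

/-! ### Area P: Kummer roots -/

/-- (P.Root) Every function with `m ∣ div f` has a holomorphic `m`-th root on `ℍ`.
[F.5 places ↔ points (order at a place = analytic order / ramification index) + `Lib.HolRootH`] -/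
def Root1 {M : ℕ} (O : Objs M) : Prop :=
  ∀ (m : ℕ), 0 < m → ∀ f : F1 M, f ≠ 0 → DivBy1 M m f →
    ∃ (a b : A01 M) (H : HolH), a ≠ 0 ∧ b ≠ 0 ∧ f * (b : F1 M) = (a : F1 M) ∧
      IsRoot1 O m a b H

/-- (P.ParEll) The multiplier of a Kummer root is trivial on the parabolic and elliptic elements
(and `±1`) of `Γ₁(M)`, i.e. on `Betti1.parEll (Gamma1 M) = {γ | tr² ≤ 4}`. -/
def ParEll1 {M : ℕ} (O : Objs M) : Prop :=
  ∀ (m : ℕ), 0 < m → ∀ (f : F1 M) (a b : A01 M) (H : HolH), f ≠ 0 → DivBy1 M m f →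
    a ≠ 0 → b ≠ 0 → f * (b : F1 M) = (a : F1 M) → IsRoot1 O m a b H →
    ∀ γ : Gamma1 M, γ ∈ Fermat.Agent.S48.Betti1.parEll (Gamma1 M) → mult (γ : SL(2, ℤ)) H = 1

/-- (P.Inj) A `Γ₁(M)`-invariant holomorphic `m`-th root of an element of `A01 M` lies in `F1 M`.
[F.2: `Γ₁(M)`-invariant + meromorphic at the cusps ⇒ in `ℂ·F1 M`, then descent `ℂ → ℚ̄`] -/
def Inj1 {M : ℕ} (O : Objs M) : Prop :=
  ∀ (m : ℕ), 0 < m → ∀ (x : A01 M) (H : HolH), H ^ m = O.θ x →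
    (∀ γ : SL(2, ℤ), γ ∈ Gamma1 M → compSL γ H = H) → ∃ y : F1 M, y ^ m = (x : F1 M)

/-- (P.Surj) Every `μ_m`-valued character of `Γ₁(M)` trivial on parabolic and elliptic elements
is the Kummer character of a function of `F1 M` (over `ℚ̄`) with `m ∣ div f`.
[`G1/EisGen` + `G1/XRootGen` + `G1/DescentGen` (generic subgroup) + F.2 + F.5] -/
def Surj1 {M : ℕ} (O : Objs M) : Prop :=
  ∀ (m : ℕ), 0 < m → ∀ φ : Gamma1 M →* ℂˣ, (∀ γ, φ γ ^ m = 1) →
    (∀ γ ∈ Fermat.Agent.S48.Betti1.parEll (Gamma1 M), φ γ = 1) →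
    ∃ (f : F1 M) (a b : A01 M) (H : HolH), f ≠ 0 ∧ DivBy1 M m f ∧ a ≠ 0 ∧ b ≠ 0 ∧
      f * (b : F1 M) = (a : F1 M) ∧ IsRoot1 O m a b H ∧
      ∀ γ : Gamma1 M, mult (γ : SL(2, ℤ)) H = (φ γ : ℂ)

/-- (P.HeckeRoot) The Hecke operator on roots: if `f = a / b` has the root `H`, then an element
`g` of `F1 M` with `q`-expansion the Hecke series of `f` has a root whose multiplier at `γ` is
`∏ₓ mult (coc γ x) H` (`coc` = the cocycle of `Gamma1Coset.sys1`, the coset system of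
`Betti1.tau1`; analytically `g = ∏ₓ f ∘ rep1 x`, `Betti1.rep1_spec`). -/
def HeckeRoot1 {M : ℕ} [NeZero M] (O : Objs M) : Prop :=
  ∀ (ℓ : ℕ) [NeZero ℓ] (hℓ : ℓ.Prime) (hℓM : ¬ ℓ ∣ M) (m : ℕ), 0 < m →
    ∀ (f g : F1 M) (a b : A01 M) (H : HolH), a ≠ 0 → b ≠ 0 → f * (b : F1 M) = (a : F1 M) →
      IsRoot1 O m a b H → (g : LaurentSeries Qb) = heckeSeries1 O hℓ hℓM f →
      ∃ (a' b' : A01 M) (H' : HolH), a' ≠ 0 ∧ b' ≠ 0 ∧ g * (b' : F1 M) = (a' : F1 M) ∧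
        IsRoot1 O m a' b' H' ∧
        ∀ γ : Gamma1 M, mult (γ : SL(2, ℤ)) H' =
          ∏ x : OnePoint (ZMod ℓ),
            mult ((((Fermat.Agent.S48.G1.Gamma1Coset.sys1 M hℓ hℓM).coc γ x : Gamma1 M)) :
              SL(2, ℤ)) H

/-! ### Area K: the Kummer statement (K1) and Gauss normalisation -/

/-- (K.Gauss) Gauss normalisation of `F1 M` at every valuation subring over a prime `q ∤ M`. -/
def Gauss1 (M : ℕ) : Prop :=
  ∀ (q : ℕ), q.Prime → ¬ q ∣ M → ∀ A : ValuationSubring Qb, A.LiesOverPrime q →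
    Fermat.Agent.S48.ExitD.HasGaussNorm (F1 M) A

/-- (K.K1) The Kummer statement (K1), `ord`-difference form, at every prime `q ∤ M`. -/
def K1_1 (M : ℕ) : Prop :=
  ∀ (q : ℕ), q.Prime → ¬ q ∣ M → ∀ A : ValuationSubring Qb, A.LiesOverPrime q →
    Fermat.Agent.S48.ExitD.K1Ord (F1Q M) q A

/-! ### Area ES: the function-level statements (unr) and (ES with diamond) -/

/-- (ES.unr) Inertia at `q ∤ M` acts trivially on Kummer classes of exponent prime to `q`.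
[`ExitD.inertia_trivial` from `Gauss1` + `K1_1`] -/
def Unr1 (M : ℕ) : Prop :=
  ∀ (q : ℕ), q.Prime → ¬ q ∣ M → ∀ m : ℕ, ¬ q ∣ m →
    ∀ A : ValuationSubring Qb, A.LiesOverPrime q → ∀ σ ∈ A.inertiaSubgroupIn ℚ,
      ∀ f : F1 M, f ≠ 0 → DivBy1 M m f → ∃ g : F1 M, galF1 M σ f = f * g ^ m

/-- (ES.es) The Eichler–Shimura congruence with diamond on Kummer classes:
`σ²f · (⟨ℓ⟩f)^ℓ = T_ℓ(σ f) · g^m` for `σ` a Frobenius at `ℓ ∤ M`, `ℓ ∤ m`.
[`ExitD.es_dia` (or `ExitDGauss`) from `Gauss1` + `K1_1` + `Closed1` + `O.dia_gal`] -/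
def ES1 {M : ℕ} (O : Objs M) : Prop :=
  ∀ (ℓ : ℕ) (hℓ : ℓ.Prime) (hℓM : ¬ ℓ ∣ M) (m : ℕ), ¬ ℓ ∣ m →
    ∀ A : ValuationSubring Qb, A.LiesOverPrime ℓ → ∀ σ : GQ1, A.IsFrobeniusAt σ ℓ →
      ∀ f : F1 M, f ≠ 0 → DivBy1 M m f → ∃ g : F1 M,
        galF1 M σ (galF1 M σ f) * O.dia (unitL hℓ hℓM) f ^ ℓ =
          heckeF1 O ℓ (galF1 M σ f) * g ^ m

/-! ### Forms side and the level `M = 1` -/

/-- (B) `⟨-1⟩ = 1` on `S₂(Γ₁(M))`. -/
def DNeg1 (M : ℕ) [NeZero M] : Prop :=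
  ∀ f : CuspForm (Gamma1 M) 2, Fermat.Agent.S48.Hecke1.diamond M 2 (-1) f = f

/-- (P.LevelOne) The producer exit at `M = 1`: the empty datum (`S₂(Γ₁(1)) = 0`, `r = 0`). -/
def LevelOne : Prop :=
  ∀ (p : ℕ) [Fact p.Prime],
    Nonempty (ES1Data 1 p (Fermat.Agent.S48.G1.Ops.Top 1) (Fermat.Agent.S48.G1.Ops.Dop 1))

/-! ### The exit of area P -/

/-- **The assembly statement** (`Producer1/Assembly1.lean`): the bricks give the Eichler–Shimura
data with diamonds at level `Γ₁(M)`, `2 ≤ M`. -/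
def AssemblyStatement : Prop :=
  ∀ (M p : ℕ) [NeZero M] [Fact p.Prime] (O : Objs M),
    Frac1 M → Cont1 M → Closed1 O → HeckeGal2 → Root1 O → ParEll1 O → Inj1 O → Surj1 O →
    HeckeRoot1 O → Unr1 M → ES1 O → DNeg1 M →
    Nonempty (ES1Data M p (Fermat.Agent.S48.G1.Ops.Top M) (Fermat.Agent.S48.G1.Ops.Dop M))

end Fermat.Agent.S48.G1.Producer1.Bricks1
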