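/-
PROGRAM DS (S48) / G1, AREA P, row P.1 (helper51): the concrete instance facts about the
analytic objects `O : Objs M` of `Producer1/Objects1.lean`, and the bricks `Root1`, `ParEll1`.

Namespace `Producer1.Model1` (helper lemmas, for ANY `O : Objs M`):
* `theta_eq_of_hasQ`, `theta_const`, `theta_injective`, `theta_ne_zero`, `hconst`, `theta_genJ`,
  `theta_genG`, `theta_eq_theta1`, `theta_mem_cuspMod` : the avatar map of any `O : Objs M` is
  pinned down by `O.hasQ` (it is `Theta1.theta1`), and takes values in `cuspMod`.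
Namespace `Producer1` (the exits of row P.1):
* `objs1 M hM : Objs M` : the concrete objects (`Theta1.theta1`, `F1.diaF1`).
* `root1 O : Bricks1.Root1 O` : every function with `m ∣ div f` has a holomorphic `m`-th root
  (order functions are multiples of places, `ParEllGen.exists_eq_mul_of_dvd_ord_hom`, and
  `Lib.HolRootH.exists_root_frac`).
* `parEll1 M hM O : Bricks1.ParEll1 O` : the multiplier of a root is trivial on parabolic and
  elliptic elements (`ParEllGen.mult_eq_one_of_trace_sq_le` + `GrowthG.mem_cuspMod_of_gens`).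
-/
import Mathlib
import Fermat.Agent.S48.G1.Producer1.Bricks1
import Fermat.Agent.S48.G1.F1.Theta1
import Fermat.Agent.S48.G1.F1.Dia
import Fermat.Agent.S48.G1.F1.GrowthG
import Fermat.Agent.S48.G1.ParEllGen
import Fermat.Agent.Lib.HolRootH

set_option autoImplicit false

noncomputable section

open scoped MatrixGroups
open CongruenceSubgroup ModularCurve AlgebraicCurve UpperHalfPlane
open Fermat.Agent.S24.HolH Fermat.Agent.S24.Theta
open Fermat.Agent.S30.KummerChar
open Fermat.Agent.S48.G1.F1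

namespace Fermat.Agent.S48.G1.Producer1

namespace Model1

variable {M : ℕ}

/-! ### The avatar map of an arbitrary `O : Objs M` -/

/-- `O.θ x` is THE holomorphic function with `q`-expansion `x`. -/
theorem theta_eq_of_hasQ (O : Objs M) {x : A01 M} {φ : HolH}
    (h : HasQ iotaBar ((x : F1 M) : LaurentSeries Qb) (φ : ℍ → ℂ)) : O.θ x = φ :=
  Subtype.ext ((O.hasQ x).fun_unique h)

/-- `O.θ` on constants. -/
theorem theta_const (O : Objs M) (c : Qb) :
    O.θ (algebraMap Qb (A01 M) c) = algebraMap ℂ HolH (iotaBar c) :=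
  theta_eq_of_hasQ O (hasQ_algebraMap iotaBar c)

theorem theta_injective (O : Objs M) : Function.Injective O.θ := by
  intro x y h
  have h1 := O.hasQ x
  have h2 := O.hasQ y
  rw [h] at h1
  exact Subtype.ext (Subtype.ext (h1.unique h2))

theorem theta_ne_zero (O : Objs M) {x : A01 M} (hx : x ≠ 0) : O.θ x ≠ 0 :=
  (map_ne_zero_iff O.θ (theta_injective O)).mpr hx

theorem theta_genJ (O : Objs M) (d : ℕ) [NeZero d] (hd : d ∣ M) :
    O.θ (genJ M d hd) = jScale d :=
  theta_eq_of_hasQ O (hasQ_coeffEmb_qExpand_jq iotaBar d)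

theorem theta_genG (O : Objs M) (hM : 2 ≤ M) (b : (ZMod M)ˣ) :
    O.θ (genG M b) = GHol.gHol M (b : ZMod M) :=
  theta_eq_of_hasQ O (GHol.hasQ_gq iotaBar (GHol.unit_ne_zero hM b))

/-- The avatar map of any `O : Objs M` is `Theta1.theta1`. -/
theorem theta_eq_theta1 (O : Objs M) (hM : 2 ≤ M) : O.θ = Theta1.theta1 iotaBar M hM :=
  RingHom.ext fun x => theta_eq_of_hasQ O (Theta1.hasQ_theta1 hM x)

/-- The inclusion `A01 M → F1 M` as a ring homomorphism. -/
def inclA01 (M : ℕ) : A01 M →+* F1 M := SubringClass.subtype (A01 M)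

@[simp] theorem inclA01_apply (x : A01 M) : inclA01 M x = (x : F1 M) := rfl

theorem inclA01_injective (M : ℕ) : Function.Injective (inclA01 M) := Subtype.val_injective

theorem frac_inclA01 (f : F1 M) : ∃ a b : A01 M, b ≠ 0 ∧ f * inclA01 M b = inclA01 M a := by
  obtain ⟨a, b, hb, e⟩ := Fermat.Agent.S48.G1.F1.exists_mul_eq f
  refine ⟨a, b, fun h => hb ?_, ?_⟩
  · rw [h]; rfl
  · rw [inclA01_apply, inclA01_apply]
    exact e

/-- `O.θ` is semilinear on `ℚ̄`-proportional pairs. -/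
theorem hconst (O : Objs M) (c : Qb) (x y : A01 M)
    (h : algebraMap Qb (F1 M) c * inclA01 M y = inclA01 M x) :
    O.θ x = algebraMap ℂ HolH (iotaBar c) * O.θ y := by
  have hx : x = algebraMap Qb (A01 M) c * y := Subtype.ext h.symm
  rw [hx, map_mul, theta_const O]

/-! ### Brick `Root1` -/

/-- **Analytic divisibility**: if `m ∣ div (a / b)` at every place of `F1 M / ℚ̄` then `m` divides
the order of `θ a / θ b` at every point of the upper half plane. -/
theorem dvd_ordZ_sub (O : Objs M) {m : ℕ} {a b : A01 M} (ha : a ≠ 0) (hb : b ≠ 0)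
    (hdiv : ∀ v : Place Qb (F1 M), (m : ℤ) ∣ v.ord (a : F1 M) - v.ord (b : F1 M)) (τ : ℍ) :
    (m : ℤ) ∣ ordZ τ (O.θ a) - ordZ τ (O.θ b) := by
  let o : A01 M → ℤ := fun x => ordZ τ (O.θ x)
  have hmul : ∀ x y : A01 M, x ≠ 0 → y ≠ 0 → o (x * y) = o x + o y := by
    intro x y hx hy
    show ordZ τ (O.θ (x * y)) = _
    rw [map_mul, ordZ_mul τ (theta_ne_zero O hx) (theta_ne_zero O hy)]
  have hadd : ∀ x y : A01 M, x ≠ 0 → y ≠ 0 → x + y ≠ 0 → min (o x) (o y) ≤ o (x + y) := by
    intro x y hx hy hxy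
    show _ ≤ ordZ τ (O.θ (x + y))
    rw [map_add]
    refine min_le_ordZ_add τ (theta_ne_zero O hx) (theta_ne_zero O hy) ?_
    rw [← map_add]
    exact theta_ne_zero O hxy
  have hK : ∀ (c : Qb) (x y : A01 M), x ≠ 0 → y ≠ 0 →
      algebraMap Qb (F1 M) c * inclA01 M y = inclA01 M x → o x = o y := by
    intro c x y hx hy h
    have hc : c ≠ 0 := by
      rintro rfl
      rw [map_zero, zero_mul] at h
      exact hx (inclA01_injective M (by rw [← h, map_zero]))
    show ordZ τ (O.θ x) = ordZ τ (O.θ y)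
    have hc' : algebraMap ℂ HolH (iotaBar c) ≠ 0 := by
      intro h0
      have h2 : O.θ x = 0 := by rw [hconst O c x y h, h0, zero_mul]
      exact theta_ne_zero O hx h2
    rw [hconst O c x y h, ordZ_mul τ hc' (theta_ne_zero O hy),
      ordZ_algebraMap ((map_ne_zero iotaBar).mpr hc), zero_add]
  obtain ⟨t, -, ht⟩ := Fermat.Agent.S48.G1.ParEllGen.exists_eq_mul_of_dvd_ord_hom
    (K := Qb) (inclA01 M) (inclA01_injective M) frac_inclA01 o hmul hadd hK ⊤
    (fun _ _ => AddSubgroup.mem_top _) m a b ha hb hdiv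
  exact ⟨t, ht⟩

/-- Divisibility of the divisor of `f = a / b` in terms of `a` and `b`. -/
theorem dvd_ord_sub_of_mul_eq1 {m : ℕ} {f : F1 M} (hf : f ≠ 0) {a b : A01 M} (hb : b ≠ 0)
    (e : f * (b : F1 M) = (a : F1 M)) (hdiv : DivBy1 M m f) (v : Place Qb (F1 M)) :
    (m : ℤ) ∣ v.ord (a : F1 M) - v.ord (b : F1 M) := by
  have hb' : (b : F1 M) ≠ 0 := fun h => hb (Subtype.ext h)
  rw [← e, v.ord_mul hf hb', add_sub_cancel_right]
  exact hdiv v

/-- **Moderate growth at all cusps** of the avatar map (`F1/GrowthG`, exit (G3)). -/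
theorem theta_mem_cuspMod (O : Objs M) (hM : 2 ≤ M) (x : A01 M) :
    O.θ x ∈ Fermat.Agent.S24.Degree.cuspMod :=
  Fermat.Agent.S48.G1.F1.GrowthG.mem_cuspMod_of_gens iotaBar O.θ
    (fun d _ hd => theta_genJ O d hd) (fun b => theta_genG O hM b) (theta_const O) x

end Model1

open Model1

/-! ### The exits of row P.1 -/

/-- **The concrete analytic objects** of `F1 M` (`2 ≤ M`): `θ = Theta1.theta1`,
`dia = F1.diaF1`. -/
def objs1 (M : ℕ) [NeZero M] (hM : 2 ≤ M) : Objs M where
  θ := Theta1.theta1 iotaBar M hM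
  hasQ := fun x => Theta1.hasQ_theta1 hM x
  inv := fun _ hγ x => Theta1.compSL_theta1_of_mem_Gamma1 hM hγ x
  dia := diaF1 M
  dia_spec := fun u x =>
    ⟨⟨diaF1 M u (x : F1 M), diaF1_mem_A01 M u x.2⟩, rfl, fun _ hγ hu =>
      DiaEx.theta_diaF1 (ι := iotaBar) (fun y => Theta1.hasQ_theta1 hM y) (by omega) hγ u hu.symm x⟩
  dia_gal := fun u σ x => diaF1_galF1 M u σ x

@[simp] theorem objs1_theta (M : ℕ) [NeZero M] (hM : 2 ≤ M) :
    (objs1 M hM).θ = Theta1.theta1 iotaBar M hM := rfl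

@[simp] theorem objs1_dia (M : ℕ) [NeZero M] (hM : 2 ≤ M) : (objs1 M hM).dia = diaF1 M := rfl

/-- **Brick `Root1`** (for every `M` and every `O`, no hypothesis). -/
theorem root1 {M : ℕ} (O : Objs M) : Bricks1.Root1 O := by
  intro m hm f hf hdiv
  obtain ⟨a, b, hb, e⟩ := Fermat.Agent.S48.G1.F1.exists_mul_eq f
  have hb0 : b ≠ 0 := fun h => hb (by rw [h]; rfl)
  have ha0 : a ≠ 0 := by
    rintro rfl
    exact mul_ne_zero hf hb e
  obtain ⟨H, -, hH, -⟩ := Fermat.Agent.Lib.HolRootH.exists_root_frac m hm.ne' (O.θ a) (O.θ b)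
    (theta_ne_zero O ha0) (theta_ne_zero O hb0)
    (dvd_ordZ_sub O ha0 hb0 (dvd_ord_sub_of_mul_eq1 hf hb0 e hdiv))
  exact ⟨a, b, H, ha0, hb0, e, hH⟩

/-- **Brick `ParEll1`** (`2 ≤ M`, every `O`). -/
theorem parEll1 (M : ℕ) [NeZero M] (hM : 2 ≤ M) (O : Objs M) : Bricks1.ParEll1 O := by
  intro m hm f a b H hf hdiv ha hb e hH γ hγ
  exact Fermat.Agent.S48.G1.ParEllGen.mult_eq_one_of_trace_sq_le (K := Qb) (inclA01 M) iotaBar
    O.θ (inclA01_injective M) frac_inclA01 (theta_injective O) (hconst O)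
    (theta_mem_cuspMod O hM) (N := M)
    (fun g hg x => O.inv g (Fermat.Agent.S48.Betti1.gamma_le_gamma1 M hg) x) hm ha hb
    (dvd_ord_sub_of_mul_eq1 hf hb e hdiv) hH (σ := (γ : SL(2, ℤ)))
    (fun x => O.inv _ γ.2 x) hγ

end Fermat.Agent.S48.G1.Producer1
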