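/-
PROGRAM DS (S48) / G1, AREA P (helper13): THE BRIDGE between `Producer1/Objects1.lean`
(`Objs M`, `KRel1`, the brick `Prop`s of `Producer1/Bricks1.lean`) and helper162's generic Kummer
glue `G1/Glue1.lean`.

* `modelOf O : Glue1.Model (Gamma1 M) (F1 M) (galF1 M)` for `O : Objs M`:
  `A0 := A01 M`, `ι :=` inclusion, `θ := O.θ`, `Div m f := DivBy1 M m f` (divisibility of the
  orders at all places of `F1 M / ℚ̄`).
* `krel1_iff`, `root1_iff`, `parEll1_iff`, `inj1_iff`, `surj1_iff` : the bricks of `Bricks1` ARE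
  the bricks `K.Root m`, `K.ParEll m`, `K.Inj m`, `K.Surj m` of `K := modelOf O` (by `Iff.rfl`),
  so the generic adapters (`RootGen.root_of_places`, `ParEllModel`, ...) apply verbatim.
* `pairingOf O p hRoot hParEll hInj hSurj : KummerPairing p (F1 M) (galF1 M)` with
  `A = A1 M` and `R n f c = KRel1 O (p ^ n) f c` (by `Iff.rfl`).
-/
import Mathlib
import Fermat.Agent.S48.G1.Producer1.Bricks1
import Fermat.Agent.S48.G1.Glue1
import Fermat.Agent.S48.G1.F1.Gens
import Fermat.Agent.S48.G1.F1.Cont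

set_option autoImplicit false

noncomputable section

open scoped MatrixGroups
open CongruenceSubgroup ModularCurve AlgebraicCurve UpperHalfPlane
open Fermat.Agent.S24.HolH Fermat.Agent.S24.Theta
open Fermat.Agent.S30.KummerChar
open Fermat.Agent.S48.G1.F1

namespace Fermat.Agent.S48.G1.Producer1

/-! ### The Galois action on `F1 M` is an action -/

theorem galF1_one (M : ℕ) (f : F1 M) : galF1 M 1 f = f := by
  apply Subtype.ext
  rw [coe_galF1]
  rw [show (((1 : Qb ≃ₐ[ℚ] Qb)) : Qb →+* Qb) = RingHom.id Qb from RingHom.ext fun _ => rfl,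
    coeffMap_id]

theorem galF1_mul (M : ℕ) (σ τ : Qb ≃ₐ[ℚ] Qb) (f : F1 M) :
    galF1 M (σ * τ) f = galF1 M σ (galF1 M τ f) := by
  apply Subtype.ext
  rw [coe_galF1, coe_galF1, coe_galF1, coeffMap_coeffMap]
  exact coeffMap_congr (RingHom.ext fun _ => rfl) _

/-! ### Elementary consequences of the fields of `Objs` -/

theorem Objs.theta_injective {M : ℕ} (O : Objs M) : Function.Injective O.θ := by
  intro x y h
  have h1 := O.hasQ x
  have h2 := O.hasQ y
  rw [h] at h1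
  exact Subtype.ext (Subtype.ext (h1.unique h2))

/-- Two objects have the same avatar map. -/
theorem Objs.theta_eq {M : ℕ} (O O' : Objs M) : O.θ = O'.θ := by
  refine RingHom.ext fun x => Subtype.ext ?_
  exact HasQ.fun_unique (O.hasQ x) (O'.hasQ x)

/-! ### Divisibility of divisors -/

theorem divBy1_mul {M m : ℕ} {f g : F1 M} (hf0 : f ≠ 0) (hg0 : g ≠ 0) (hf : DivBy1 M m f)
    (hg : DivBy1 M m g) : DivBy1 M m (f * g) :=
  (Fermat.Agent.S48.ExitD.placeSetting (F1Q M)).dv_mul hf0 hg0 hf hg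

theorem divBy1_pow_self (M m : ℕ) (g : F1 M) : DivBy1 M m (g ^ m) :=
  (Fermat.Agent.S48.ExitD.placeSetting (F1Q M)).dv_pow_self m g

theorem divBy1_dvd {M m k : ℕ} {f : F1 M} (hk : k ∣ m) (hf : DivBy1 M m f) : DivBy1 M k f :=
  fun P => dvd_trans (Int.natCast_dvd_natCast.mpr hk) (hf P)

theorem divBy1_gal {M m : ℕ} (σ : Qb ≃ₐ[ℚ] Qb) {f : F1 M} (hf : DivBy1 M m f) :
    DivBy1 M m (galF1 M σ f) :=
  (Fermat.Agent.S48.ExitD.placeSetting (F1Q M)).dv_gal σ hf

theorem divBy1_dia {M m : ℕ} (O : Objs M) (u : (ZMod M)ˣ) {f : F1 M} (hf : DivBy1 M m f) :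
    DivBy1 M m (O.dia u f) :=
  Fermat.Agent.S48.ExitD.divBy_algEquiv (O.dia u) hf

/-! ### The model -/

/-- **The analytic Kummer model of `F1 M`** attached to `O : Objs M` (helper162's
`Glue1.Model`). -/
def modelOf {M : ℕ} (O : Objs M) :
    Fermat.Agent.S48.G1.Glue1.Model (Gamma1 M) (F1 M) (galF1 M) where
  A0 := A01 M
  ι := (A01 M).val.toRingHom
  θ := O.θ
  ι_inj := Subtype.val_injective
  θ_inj := O.theta_injective
  frac := fun f => by
    obtain ⟨a, b, hb, h⟩ := Fermat.Agent.S48.G1.F1.exists_mul_eq f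
    exact ⟨a, b, fun h0 => hb (by rw [h0]; rfl), h⟩
  inv := O.inv
  Div := fun m f => DivBy1 M m f
  div_mul := fun hf0 hg0 hf hg => divBy1_mul hf0 hg0 hf hg
  div_pow := fun m g _ => divBy1_pow_self M m g
  div_dvd := fun hk hf => divBy1_dvd hk hf
  div_gal := fun σ _ _ hf => divBy1_gal σ hf
  gal_one := galF1_one M
  gal_mul := galF1_mul M

@[simp] theorem modelOf_θ {M : ℕ} (O : Objs M) (x : A01 M) : (modelOf O).θ x = O.θ x := rfl

@[simp] theorem modelOf_ι {M : ℕ} (O : Objs M) (x : A01 M) : (modelOf O).ι x = (x : F1 M) := rfl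

theorem modelOf_div {M : ℕ} (O : Objs M) (m : ℕ) (f : F1 M) :
    (modelOf O).Div m f ↔ ∀ P : Place Qb (F1 M), (m : ℤ) ∣ P.ord f := Iff.rfl

theorem isRoot1_iff {M : ℕ} (O : Objs M) (m : ℕ) (a b : A01 M) (H : HolH) :
    IsRoot1 O m a b H ↔ (modelOf O).IsRoot m a b H := Iff.rfl

theorem chi1_eq (M m : ℕ) [NeZero m] (c : A1 M →+ ZMod m) (γ : Gamma1 M) :
    chi1 M m c γ = Fermat.Agent.S48.G1.Glue1.chi (Gamma1 M) m c γ := rfl

theorem krel1_iff {M : ℕ} (O : Objs M) (m : ℕ) [NeZero m] (f : F1 M) (c : A1 M →+ ZMod m) :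
    KRel1 O m f c ↔ (modelOf O).KRel m f c := Iff.rfl

/-! ### The bricks of `Bricks1` are the bricks of `Glue1` -/

theorem root1_iff {M : ℕ} (O : Objs M) :
    Bricks1.Root1 O ↔ ∀ m : ℕ, 0 < m → (modelOf O).Root m := Iff.rfl

theorem parEll1_iff {M : ℕ} (O : Objs M) :
    Bricks1.ParEll1 O ↔ ∀ m : ℕ, 0 < m → (modelOf O).ParEll m := Iff.rfl

theorem inj1_iff {M : ℕ} (O : Objs M) :
    Bricks1.Inj1 O ↔ ∀ m : ℕ, 0 < m → (modelOf O).Inj m := Iff.rfl

theorem surj1_iff {M : ℕ} (O : Objs M) :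
    Bricks1.Surj1 O ↔ ∀ m : ℕ, 0 < m → (modelOf O).Surj m := Iff.rfl

theorem cont_modelOf {M : ℕ} (O : Objs M) : (modelOf O).Cont :=
  Fermat.Agent.S48.G1.F1.cont1 M

theorem frac1 (M : ℕ) : Bricks1.Frac1 M := fun f => by
  obtain ⟨a, b, hb, h⟩ := Fermat.Agent.S48.G1.F1.exists_mul_eq f
  exact ⟨a, b, fun h0 => hb (by rw [h0]; rfl), h⟩

theorem cont1 (M : ℕ) : Bricks1.Cont1 M := Fermat.Agent.S48.G1.F1.cont1 M

/-! ### The Kummer pairing -/

/-- **The Kummer pairing of `F1 M`** from the four root bricks.  `A = A1 M` and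
`R n f c = KRel1 O (p ^ n) f c`. -/
def pairingOf {M : ℕ} [NeZero M] (O : Objs M) (p : ℕ) [Fact p.Prime]
    (hRoot : Bricks1.Root1 O) (hParEll : Bricks1.ParEll1 O) (hInj : Bricks1.Inj1 O)
    (hSurj : Bricks1.Surj1 O) : KummerPairing p (F1 M) (galF1 M) :=
  (modelOf O).pairing p
    (fun n => hRoot (p ^ n) (pow_pos (Fact.out : p.Prime).pos n))
    (fun n => hParEll (p ^ n) (pow_pos (Fact.out : p.Prime).pos n))
    (fun n => hInj (p ^ n) (pow_pos (Fact.out : p.Prime).pos n))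
    (fun n => hSurj (p ^ n) (pow_pos (Fact.out : p.Prime).pos n))
    (cont_modelOf O)

theorem pairingOf_R {M : ℕ} [NeZero M] (O : Objs M) (p : ℕ) [Fact p.Prime]
    (hRoot : Bricks1.Root1 O) (hParEll : Bricks1.ParEll1 O) (hInj : Bricks1.Inj1 O)
    (hSurj : Bricks1.Surj1 O) (n : ℕ) (f : F1 M) (c : A1 M →+ ZMod (p ^ n)) :
    (pairingOf O p hRoot hParEll hInj hSurj).R n f c ↔ KRel1 O (p ^ n) f c := Iff.rfl

end Fermat.Agent.S48.G1.Producer1
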