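/-
PROGRAM DS (S48) / G1, AREA P (helper13): THE ASSEMBLY of the producer at level `Γ₁(M)`.

  bricks of `Producer1/Bricks1.lean`  ⟹  `Nonempty (ES1Data M p (Ops.Top M) (Ops.Dop M))`.

For `O : Objs M` (`Producer1/Objects1.lean`):

* `heckeGal2`           : the formal brick `Bricks1.HeckeGal2` (no hypothesis);
* `unr1`, `es1`         : `Bricks1.Unr1 M`, `Bricks1.ES1 O` from `Gauss1`, `K1_1`, `Closed1`
                          (helper128's `ExitD.unr_place`, `ExitD.es_place`);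
* `krel_hecke`          : `KRel1 O m f c → KRel1 O m (heckeF1 O ℓ f) (c ∘ τ_ℓ)`
                          (helper162's `Glue1.Model.krel_transfer` + `Closed1` + `HeckeRoot1`);
* `krel_dia`            : `KRel1 O m f c → KRel1 O m (O.dia u f) (c ∘ δ_u)`
                          (`Glue1.Model.krel_conj`, no brick);
* `heckeF1_gal`         : `heckeF1 O ℓ` commutes with the Galois action (`Closed1`);
* `nonempty_es1Data_of_bricks : Bricks1.AssemblyStatement`;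
* `nonempty_es1Data_of_objs`  : the same with the minimal list of hypotheses
                          (`Root1`, `ParEll1`, `Inj1`, `Surj1`, `HeckeRoot1`, `Closed1`, `Gauss1`,
                          `K1_1`);
* `producerExitDS_of`   : `Ops.ProducerExitDS` from the bricks at all levels `2 ≤ M`
                          (`M = 1` by helper200's `SmallLevel.nonempty_es1Data_one`).

Everything on the Betti / period / cusp-form side is helper191's seam theorem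
`Betti1.nonempty_es1Data_of_kummer` (through helper78's `ToES1Quot`).
-/
import Mathlib
import Fermat.Agent.S48.G1.Producer1.ModelOf
import Fermat.Agent.S48.Betti1.Exits
import Fermat.Agent.S48.ExitDGauss
import Fermat.Agent.S48.G1.Avatar2
import Fermat.Agent.S48.G1.SmallLevel

set_option autoImplicit false

noncomputable section

open scoped MatrixGroups
open CongruenceSubgroup ModularCurve AlgebraicCurve UpperHalfPlane
open Fermat.Agent.S24.HolH Fermat.Agent.S24.Theta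
open Fermat.Agent.S30.KummerChar
open Fermat.Agent.S48.G1.F1

namespace Fermat.Agent.S48.G1.Producer1.Assembly1

/-! ### The formal brick -/

/-- The Hecke series commutes with the coefficientwise Galois action. -/
theorem heckeGal2 : Bricks1.HeckeGal2 := by
  intro ℓ hℓ σ x y
  rw [Fermat.Agent.S48.CongrD.coeffMap_heckeMul2]
  have hz : IsPrimitiveRoot (zetaL ℓ) ℓ := Fermat.Agent.S30.Producer.zeta_spec hℓ.pos
  have hz' : IsPrimitiveRoot (Units.map ((σ : Qb →+* Qb) : Qb →* Qb) (zetaL ℓ)) ℓ :=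
    hz.map_of_injective (Units.map_injective (f := ((σ : Qb →+* Qb) : Qb →* Qb))
      (fun a b h => σ.injective h))
  exact Fermat.Agent.S48.G1.Avatar2.heckeMul2_eq_of_isPrimitiveRoot hℓ.pos hz hz' _ _

/-! ### (unr) and (ES) on functions -/

theorem unr1 {M : ℕ} (hG : Bricks1.Gauss1 M) (hK : Bricks1.K1_1 M) : Bricks1.Unr1 M := by
  intro q hq hqM m hqm A hA σ hσ f hf hdiv
  obtain ⟨h, -, hh⟩ := Fermat.Agent.S48.ExitD.unr_place (F1Q M) A (hG q hq hqM A hA)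
    (hK q hq hqM A hA) hqm hσ f hf hdiv
  exact ⟨h, hh⟩

theorem es1 {M : ℕ} (O : Objs M) (hG : Bricks1.Gauss1 M) (hK : Bricks1.K1_1 M)
    (hC : Bricks1.Closed1 O) : Bricks1.ES1 O := by
  intro ℓ hℓ hℓM m hℓm A hA σ hσ f hf hdiv
  haveI : Fact ℓ.Prime := ⟨hℓ⟩
  obtain ⟨hmem, -⟩ := hC ℓ hℓ hℓM
  obtain ⟨h, -, hh⟩ := Fermat.Agent.S48.ExitD.es_place (F1Q M) hℓ.pos A hA (hG ℓ hℓ hℓM A hA)
    (hK ℓ hℓ hℓM A hA) (zetaL ℓ) (Fermat.Agent.S30.Producer.zeta_spec hℓ.pos)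
    (O.dia (unitL hℓ hℓM)) (fun τ x => O.dia_gal (unitL hℓ hℓM) τ x) (hC ℓ hℓ hℓM) hℓm hσ f hf
    hdiv
  refine ⟨h, Subtype.ext ?_⟩
  have hc := coe_heckeF1 O hℓ hℓM (galF1 M σ f) (hmem (galF1 M σ f))
  rw [MulMemClass.coe_mul, MulMemClass.coe_mul, SubmonoidClass.coe_pow, SubmonoidClass.coe_pow,
    hc]
  exact hh

/-! ### The operator pairs -/

/-- The Hecke pair `(heckeF1 O ℓ, τ_ℓ)`. -/
theorem krel_hecke {M : ℕ} [NeZero M] (O : Objs M) (hC : Bricks1.Closed1 O)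
    (hHR : Bricks1.HeckeRoot1 O) {ℓ : ℕ} (hℓ : ℓ.Prime) (hℓM : ¬ ℓ ∣ M) {m : ℕ} [NeZero m]
    {f : F1 M} {c : A1 M →+ ZMod m} (h : KRel1 O m f c) :
    KRel1 O m (heckeF1 O ℓ f) (c.comp (Fermat.Agent.S48.Betti1.tauN M ℓ)) := by
  haveI : NeZero ℓ := ⟨hℓ.ne_zero⟩
  obtain ⟨hmem, hdv⟩ := hC ℓ hℓ hℓM
  have hcoe : ∀ x : F1 M,
      ((heckeF1 O ℓ x : F1 M) : LaurentSeries Qb) = heckeSeries1 O hℓ hℓM x :=
    fun x => coe_heckeF1 O hℓ hℓM x (hmem x)
  refine Fermat.Agent.S48.G1.Glue1.Model.krel_transfer (K := modelOf O)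
    ((Fermat.Agent.S48.G1.Gamma1Coset.sys1 M hℓ hℓM).coc) (Fermat.Agent.S48.Betti1.tauN M ℓ)
    (Fermat.Agent.S48.Betti1.tauN_proj M hℓ hℓM) (heckeF1 O ℓ) ?_ ?_ h
  · intro x hx hdx
    have hx' : heckeF1 O ℓ x = ⟨_, hmem x⟩ := Subtype.ext (hcoe x)
    rw [hx']
    exact hdv m x hx hdx
  · intro x a b H ha hb e hr
    exact hHR ℓ hℓ hℓM m (Nat.pos_of_ne_zero (NeZero.ne m)) x (heckeF1 O ℓ x) a b H ha hb e hr
      (hcoe x)

/-- The diamond pair `(O.dia u, δ_u)`. -/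
theorem krel_dia {M : ℕ} [NeZero M] (O : Objs M) (u : (ZMod M)ˣ) {m : ℕ} [NeZero m]
    {f : F1 M} {c : A1 M →+ ZMod m} (h : KRel1 O m f c) :
    KRel1 O m (O.dia u f) (c.comp (Fermat.Agent.S48.Betti1.dia1 M u)) := by
  have hs := Fermat.Agent.S48.Hecke1.diamondRep_mem M u
  have hentry := Fermat.Agent.S48.Hecke1.diamondRep_entry M u
  choose D0 hD0 hD0θ using O.dia_spec u
  exact Fermat.Agent.S48.G1.Glue1.Model.krel_conj (K := modelOf O)
    (Fermat.Agent.S48.Hecke1.diamondRep M u)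
    (Fermat.Agent.S48.Betti1.conj1 M (Fermat.Agent.S48.Hecke1.diamondRep M u) hs)
    (fun γ => Fermat.Agent.S48.Betti1.conj1_coe M _ hs γ)
    (Fermat.Agent.S48.Betti1.dia1 M u) (fun γ => Fermat.Agent.S48.Betti1.dia1_proj M u γ)
    (fun x => O.dia u x) (fun x y => map_mul (O.dia u) x y) D0 (fun x => (hD0 x).symm)
    (fun x => hD0θ x _ hs hentry) (fun x _ hx => divBy1_dia O u hx) h

/-- `heckeF1 O ℓ` commutes with the Galois action. -/
theorem heckeF1_gal {M : ℕ} (O : Objs M) (hC : Bricks1.Closed1 O) {ℓ : ℕ} (hℓ : ℓ.Prime)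
    (hℓM : ¬ ℓ ∣ M) (σ : Qb ≃ₐ[ℚ] Qb) (f : F1 M) :
    heckeF1 O ℓ (galF1 M σ f) = galF1 M σ (heckeF1 O ℓ f) := by
  obtain ⟨hmem, -⟩ := hC ℓ hℓ hℓM
  have hmem' : ∀ x : F1 M, heckeSeries1 O hℓ hℓM x ∈ F1 M := hmem
  apply Subtype.ext
  rw [coe_heckeF1 O hℓ hℓM _ (hmem' _), coe_galF1, coe_heckeF1 O hℓ hℓM _ (hmem' _)]
  unfold heckeSeries1
  rw [O.dia_gal, coe_galF1, coe_galF1]
  exact heckeGal2 ℓ hℓ σ _ _

/-! ### The assembly -/

/-- **The producer at level `Γ₁(M)`** from an object `O : Objs M` and the eight outstanding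
bricks. -/
theorem nonempty_es1Data_of_objs (M p : ℕ) [NeZero M] [Fact p.Prime] (O : Objs M)
    (hRoot : Bricks1.Root1 O) (hParEll : Bricks1.ParEll1 O) (hInj : Bricks1.Inj1 O)
    (hSurj : Bricks1.Surj1 O) (hHR : Bricks1.HeckeRoot1 O) (hC : Bricks1.Closed1 O)
    (hUnr : Bricks1.Unr1 M) (hES : Bricks1.ES1 O) :
    Nonempty (ES1Data M p (Fermat.Agent.S48.G1.Ops.Top M) (Fermat.Agent.S48.G1.Ops.Dop M)) := by
  refine Fermat.Agent.S48.Betti1.nonempty_es1Data_of_kummer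
    (pairingOf O p hRoot hParEll hInj hSurj) (AddEquiv.refl (A1 M)) (heckeF1 O)
    (fun u x => O.dia u x) ?_ ?_ ?_ ?_ ?_ ?_
  · intro ℓ hℓ n f c h
    exact krel_hecke O hC hHR hℓ.1 hℓ.2.1 h
  · intro u n f c h
    exact krel_dia O u h
  · intro ℓ hℓ σ n f c _
    exact heckeF1_gal O hC hℓ.1 hℓ.2.1 σ f
  · intro u σ n f c _
    exact O.dia_gal u σ f
  · intro q hq hqM hqp P hP σ hσ n f c h
    have hqn : ¬ q ∣ p ^ n := fun hd =>
      hqp ((Nat.prime_dvd_prime_iff_eq hq (Fact.out : p.Prime)).mp (hq.dvd_of_dvd_pow hd))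
    exact hUnr q hq hqM (p ^ n) hqn P hP σ hσ f h.1 h.2.1
  · intro ℓ hℓ u hu B hB σ hσ n f c h
    have hℓn : ¬ ℓ ∣ p ^ n := fun hd =>
      hℓ.2.2 ((Nat.prime_dvd_prime_iff_eq hℓ.1 (Fact.out : p.Prime)).mp
        (hℓ.1.dvd_of_dvd_pow hd))
    have hu' : u = unitL hℓ.1 hℓ.2.1 := Units.ext (by
      rw [hu]
      exact (Fermat.Agent.S48.Hecke1.coe_primeUnit hℓ.1 hℓ.2.1).symm)
    subst hu'
    exact hES ℓ hℓ.1 hℓ.2.1 (p ^ n) hℓn B hB σ hσ f h.1 h.2.1

/-- **The assembly statement of `Bricks1`.** -/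
theorem nonempty_es1Data_of_bricks : Bricks1.AssemblyStatement := by
  intro M p _ _ O _ _ hC _ hRoot hParEll hInj hSurj hHR hUnr hES _
  exact nonempty_es1Data_of_objs M p O hRoot hParEll hInj hSurj hHR hC hUnr hES

/-- The producer at level `Γ₁(M)` from the root bricks, `Closed1`, and the K-side bricks
`Gauss1`, `K1_1`. -/
theorem nonempty_es1Data_of_k1 (M p : ℕ) [NeZero M] [Fact p.Prime] (O : Objs M)
    (hRoot : Bricks1.Root1 O) (hParEll : Bricks1.ParEll1 O) (hInj : Bricks1.Inj1 O)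
    (hSurj : Bricks1.Surj1 O) (hHR : Bricks1.HeckeRoot1 O) (hC : Bricks1.Closed1 O)
    (hG : Bricks1.Gauss1 M) (hK : Bricks1.K1_1 M) :
    Nonempty (ES1Data M p (Fermat.Agent.S48.G1.Ops.Top M) (Fermat.Agent.S48.G1.Ops.Dop M)) :=
  nonempty_es1Data_of_objs M p O hRoot hParEll hInj hSurj hHR hC (unr1 hG hK) (es1 O hG hK hC)

/-- **The exit of area P**: `Ops.ProducerExitDS` from the bricks at all levels `2 ≤ M`. -/
theorem producerExitDS_of
    (hobjs : ∀ M : ℕ, 2 ≤ M → ∃ O : Objs M, Bricks1.Root1 O ∧ Bricks1.ParEll1 O ∧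
      Bricks1.Inj1 O ∧ Bricks1.Surj1 O ∧ (∀ [NeZero M], Bricks1.HeckeRoot1 O) ∧
      Bricks1.Closed1 O)
    (hG : ∀ M : ℕ, 2 ≤ M → Bricks1.Gauss1 M) (hK : ∀ M : ℕ, 2 ≤ M → Bricks1.K1_1 M) :
    Fermat.Agent.S48.G1.Ops.ProducerExitDS := by
  intro M p _ _
  by_cases hM : 2 ≤ M
  · obtain ⟨O, hRoot, hParEll, hInj, hSurj, hHR, hC⟩ := hobjs M hM
    exact nonempty_es1Data_of_k1 M p O hRoot hParEll hInj hSurj hHR hC (hG M hM) (hK M hM)
  · have hM1 : M = 1 := by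
      have := NeZero.ne M
      omega
    subst hM1
    exact Fermat.Agent.S48.G1.SmallLevel.nonempty_es1Data_one p _ _

end Fermat.Agent.S48.G1.Producer1.Assembly1
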