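/-
PROGRAM DS (S48) / G1, AREA P (helper13): THE ROUTE B EXIT OF THE PRODUCER, from the bricks.

G1 DEAL #3 (R6) fixes the exit of G1 as

  `producerExitB (M l : ℕ) [NeZero M] [Fact l.Prime] (hl : 5 ≤ l) (h23 : 2 ∣ M ∨ 3 ∣ M) :
      Nonempty (ES1Data M l (Ops.Top M) (Ops.Dop M))`.

This file proves it from the bricks of `Producer1/Bricks1.lean` as NAMED HYPOTHESES, with
`Gauss1` already discharged (helper128's `ES.Brick.gauss1`):

* `nonempty_es1Data_at` : one level `M`, one `O : Objs M`, the six bricks at `O` and `K1_1 M`;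
* `producerExitB_of`    : the exit, from the bricks at all levels `2 ≤ M` and `K1_1` at the
                          levels divisible by `2` or `3`.

The unconditional `producerExitB` is a one-line application of `producerExitB_of` once the
bricks are on main (file `Producer1/ExitB.lean`).
-/
import Mathlib
import Fermat.Agent.S48.G1.Producer1.Assembly1
import Fermat.Agent.S48.G1.ES.Brick

set_option autoImplicit false

namespace Fermat.Agent.S48.G1.Producer1.ExitB

open Fermat.Agent.S48.G1 Fermat.Agent.S48.G1.Producer1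

/-- **One level.**  The Eichler–Shimura datum at level `Γ₁(M)` and any prime `l`, from the six
bricks at one `O : Objs M` and the brick `K1_1 M` (the Gauss brick is a theorem). -/
theorem nonempty_es1Data_at (M l : ℕ) [NeZero M] [Fact l.Prime] (O : Objs M)
    (hRoot : Bricks1.Root1 O) (hParEll : Bricks1.ParEll1 O) (hInj : Bricks1.Inj1 O)
    (hSurj : Bricks1.Surj1 O) (hHR : Bricks1.HeckeRoot1 O) (hC : Bricks1.Closed1 O)
    (hK : Bricks1.K1_1 M) : Nonempty (ES1Data M l (Ops.Top M) (Ops.Dop M)) :=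
  Assembly1.nonempty_es1Data_of_k1 M l O hRoot hParEll hInj hSurj hHR hC
    (ES.Brick.gauss1 M) hK

/-- **ROUTE B exit of G1, from the bricks.**  The producer at every level divisible by `2` or
`3`, from the bricks at the levels `2 ≤ M` and `K1_1` at the levels divisible by `2` or `3`. -/
theorem producerExitB_of
    (hobjs : ∀ (M : ℕ) [NeZero M], 2 ≤ M → ∃ O : Objs M, Bricks1.Root1 O ∧ Bricks1.ParEll1 O ∧
      Bricks1.Inj1 O ∧ Bricks1.Surj1 O ∧ Bricks1.HeckeRoot1 O ∧ Bricks1.Closed1 O)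
    (hK : ∀ (M : ℕ) [NeZero M], (2 ∣ M ∨ 3 ∣ M) → Bricks1.K1_1 M)
    (M l : ℕ) [NeZero M] [Fact l.Prime] (_hl : 5 ≤ l) (h23 : 2 ∣ M ∨ 3 ∣ M) :
    Nonempty (ES1Data M l (Ops.Top M) (Ops.Dop M)) := by
  have hM : 2 ≤ M := by
    have hM0 : 0 < M := Nat.pos_of_ne_zero (NeZero.ne M)
    rcases h23 with h | h
    · exact Nat.le_of_dvd hM0 h
    · exact le_trans (by norm_num) (Nat.le_of_dvd hM0 h)
  obtain ⟨O, hRoot, hParEll, hInj, hSurj, hHR, hC⟩ := hobjs M hM
  exact nonempty_es1Data_at M l O hRoot hParEll hInj hSurj hHR hC (hK M h23)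

/-- The same with the bricks asked only at the levels divisible by `2` or `3`. -/
theorem producerExitB_of' (M l : ℕ) [NeZero M] [Fact l.Prime] (_hl : 5 ≤ l)
    (h23 : 2 ∣ M ∨ 3 ∣ M) (O : Objs M)
    (hRoot : Bricks1.Root1 O) (hParEll : Bricks1.ParEll1 O) (hInj : Bricks1.Inj1 O)
    (hSurj : Bricks1.Surj1 O) (hHR : Bricks1.HeckeRoot1 O) (hC : Bricks1.Closed1 O)
    (hK : (2 ∣ M ∨ 3 ∣ M) → Bricks1.K1_1 M) :
    Nonempty (ES1Data M l (Ops.Top M) (Ops.Dop M)) :=
  nonempty_es1Data_at M l O hRoot hParEll hInj hSurj hHR hC (hK h23)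

end Fermat.Agent.S48.G1.Producer1.ExitB
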