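/-
PROGRAM DS (S48) / G1, AREA P — brick `Bricks1.HeckeRoot1`, THE CORE (helper206).

`heckeRoot1_of_hk` : the conclusion of `Bricks1.HeckeRoot1 O` at a prime `ℓ ∤ M`, for an ARBITRARY
`O : Objs M`, from ONE analytic input: a multiplicative operator `hk` on holomorphic functions
with

* `hk_apply` : `hk H τ = (H ∘ σ)(ℓ τ) · ∏_{j < ℓ} H ((τ + j) / ℓ)`  (`σ ∈ Γ₀(M)` with lower right
               entry `≡ ℓ`), i.e. `hk H = ∏ₓ H ∘ rep1 x` (`Betti1.HolHecke1.heckeHol1`);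
* `hmult`    : the multiplier law `(hk H) ∘ γ = (∏ₓ mult (coc γ x) H) · hk H` for eigenfunctions
               `H` of `Γ₁(M)`.

NO membership input (`Closed1`) is used: only the given `g ∈ F1 M` with `q`-expansion the Hecke
series of `f` is needed.  Write `g = a₀ / b₀` (`F1.exists_mul_eq`).  The `q`-expansion principle
(`Avatar2.hasQ_heckeMul2`) gives `hk (θ a) · θ b₀ = θ a₀ · hk (θ b)`, hence
`(hk H · θ b₀) ^ m = (θ a₀ · θ b₀ ^ (m - 1)) · hk (θ b) ^ m`, and holomorphic division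
(`exists_mul_eq_of_pow_eq`, from `Lib.HolRootH`) produces the root `H' = hk H · θ b₀ / hk (θ b)`
of `(a₀, b₀)`, with the multipliers of `hk H`.
-/
import Fermat.Agent.S48.G1.Producer1.Bricks1
import Fermat.Agent.S48.G1.Avatar2
import Fermat.Agent.S48.G1.F1.Gens
import Fermat.Agent.Lib.HolRootH

set_option autoImplicit false

noncomputable section

open scoped MatrixGroups
open CongruenceSubgroup ModularCurve UpperHalfPlane HahnSeries
open Fermat.Agent.S24.HolH Fermat.Agent.S24.Theta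
open Fermat.Agent.S30.KummerChar
open Fermat.Agent.S48.G1.F1 Fermat.Agent.S48.G1.Avatar2

namespace Fermat.Agent.S48.G1.Producer1.HeckeRootCore

/-! ### Holomorphic division -/

/-- **Holomorphic division**: if `X ^ m = Y · Z ^ m` in `HolH` (`Y, Z ≠ 0`), then `X = H' · Z`
for a holomorphic `H'` with `H' ^ m = Y`. -/
theorem exists_mul_eq_of_pow_eq {m : ℕ} (hm : m ≠ 0) {X Y Z : HolH} (hY : Y ≠ 0) (hZ : Z ≠ 0)
    (h : X ^ m = Y * Z ^ m) : ∃ H' : HolH, H' ^ m = Y ∧ X = H' * Z := by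
  have hX : X ≠ 0 := by
    rintro rfl
    rw [zero_pow hm] at h
    exact mul_ne_zero hY (pow_ne_zero _ hZ) h.symm
  have hdvd : ∀ τ : ℍ, (m : ℤ) ∣ ordZ τ Y := by
    intro τ
    have h1 := congrArg (ordZ τ) h
    rw [Fermat.Agent.Lib.HolRootH.ordZ_pow τ hX, ordZ_mul τ hY (pow_ne_zero _ hZ),
      Fermat.Agent.Lib.HolRootH.ordZ_pow τ hZ] at h1
    exact ⟨ordZ τ X - ordZ τ Z, by linarith⟩
  obtain ⟨H₀, hH₀⟩ := Fermat.Agent.Lib.HolRootH.exists_root m hm Y hY hdvd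
  have hH₀0 : H₀ ≠ 0 := by
    rintro rfl
    rw [zero_pow hm] at hH₀
    exact hY hH₀.symm
  have h2 : X ^ m = (H₀ * Z) ^ m := by rw [mul_pow, hH₀, h]
  obtain ⟨ζ, hζ, hζX⟩ := Fermat.Agent.Lib.HolRootH.exists_rootOfUnity_of_pow_eq m hm X (H₀ * Z) h2
    (mul_ne_zero hH₀0 hZ)
  refine ⟨ζ • H₀, ?_, ?_⟩
  · rw [smul_pow, hζ, one_smul, hH₀]
  · rw [hζX, smul_mul_assoc]

/-! ### Generalities on `Objs` -/

section Objs

variable {M : ℕ} (O : Objs M)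

/-- The series of an expansion is determined by the function. -/
theorem series_unique {A B : LaurentSeries Qb} {φ : ℍ → ℂ} (hA : HasQ iotaBar A φ)
    (hB : HasQ iotaBar B φ) : A = B :=
  (hasQ_iff_hasQExpK.mp hA).unique one_ne_zero (hasQ_iff_hasQExpK.mp hB)

/-- The avatar map of an `Objs` is injective. -/
theorem theta_injective : Function.Injective O.θ := by
  intro x y h
  have hy := O.hasQ y
  rw [← h] at hy
  exact Subtype.ext (Subtype.ext (series_unique (O.hasQ x) hy))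

theorem theta_ne_zero {x : A01 M} (hx : x ≠ 0) : O.θ x ≠ 0 :=
  (map_ne_zero_iff _ (theta_injective O)).mpr hx

variable {ℓ : ℕ} (hℓ : ℓ.Prime) (hℓM : ¬ ℓ ∣ M)

theorem heckeSeries1_mul (f g : F1 M) :
    heckeSeries1 O hℓ hℓM (f * g) = heckeSeries1 O hℓ hℓM f * heckeSeries1 O hℓ hℓM g := by
  unfold heckeSeries1
  rw [map_mul]
  exact Fermat.Agent.S48.CongrD.heckeMul2_mul ℓ hℓ.pos (zetaL ℓ)
    (Fermat.Agent.S30.Producer.zeta_spec hℓ.pos) _ _ _ _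

theorem heckeSeries1_one : heckeSeries1 O hℓ hℓM (1 : F1 M) = 1 := by
  unfold heckeSeries1
  rw [map_one]
  exact Fermat.Agent.S48.CongrD.heckeMul2_one ℓ hℓ.pos (zetaL ℓ)

theorem heckeSeries1_ne_zero {f : F1 M} (hf : f ≠ 0) : heckeSeries1 O hℓ hℓM f ≠ 0 := by
  intro h0
  have h1 := heckeSeries1_mul O hℓ hℓM f f⁻¹
  rw [mul_inv_cancel₀ hf, heckeSeries1_one, h0, zero_mul] at h1
  exact one_ne_zero h1

/-- **The `q`-expansion of the analytic Hecke translate of an avatar** is the Hecke series. -/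
theorem hasQ_of_apply [NeZero ℓ] {σ : SL(2, ℤ)} (hσ0 : σ ∈ Gamma0 M)
    (hσe : ((σ 1 1 : ℤ) : ZMod M) = ((unitL hℓ hℓM : (ZMod M)ˣ) : ZMod M)) (x : A01 M)
    {W : HolH}
    (hW : ∀ τ : ℍ, (W : ℍ → ℂ) τ
      = heckeFun2 ℓ ((O.θ x : HolH) : ℍ → ℂ) ((compSL σ (O.θ x) : HolH) : ℍ → ℂ) τ)
    (hWT : compSL ModularGroup.T W = W) :
    HasQ iotaBar (heckeSeries1 O hℓ hℓM (x : F1 M)) (W : ℍ → ℂ) := by
  obtain ⟨y, hy, hθy⟩ := O.dia_spec (unitL hℓ hℓM) x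
  have h1 : HasQ iotaBar (((O.dia (unitL hℓ hℓM) (x : F1 M) : F1 M)) : LaurentSeries Qb)
      ((compSL σ (O.θ x) : HolH) : ℍ → ℂ) := by
    rw [hy, ← hθy σ hσ0 hσe]
    exact O.hasQ y
  have hfun : heckeFun2 ℓ ((O.θ x : HolH) : ℍ → ℂ) ((compSL σ (O.θ x) : HolH) : ℍ → ℂ)
      = (W : ℍ → ℂ) := funext fun τ => (hW τ).symm
  have hper : ∀ τ : ℍ,
      heckeFun2 ℓ ((O.θ x : HolH) : ℍ → ℂ) ((compSL σ (O.θ x) : HolH) : ℍ → ℂ) ((1 : ℝ) +ᵥ τ)
        = heckeFun2 ℓ ((O.θ x : HolH) : ℍ → ℂ) ((compSL σ (O.θ x) : HolH) : ℍ → ℂ) τ := by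
    intro τ
    rw [hfun]
    have h3 := congrArg (fun F : HolH => (F : ℍ → ℂ) τ) hWT
    simp only [compSL_apply] at h3
    rw [UpperHalfPlane.modular_T_smul] at h3
    exact h3
  have h2 := hasQ_heckeMul2 iotaBar hℓ.pos (Fermat.Agent.S30.Producer.zeta_spec hℓ.pos)
    (O.hasQ x) h1 hper
  rw [hfun] at h2
  exact h2

end Objs

/-! ### The brick, from the analytic Hecke operator -/

theorem T_mem_Gamma1' (M : ℕ) : ModularGroup.T ∈ Gamma1 M := by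
  rw [Gamma1_mem]
  simp [ModularGroup.T]

/-- **`Bricks1.HeckeRoot1` at `ℓ`, from an analytic Hecke operator `hk`** (`hk_apply`: the
product formula; `hmult`: the multiplier law for the cocycle `coc`). -/
theorem heckeRoot1_of_hk {M : ℕ} (O : Objs M) {ℓ : ℕ} [NeZero ℓ] (hℓ : ℓ.Prime)
    (hℓM : ¬ ℓ ∣ M) {σ : SL(2, ℤ)} (hσ0 : σ ∈ Gamma0 M)
    (hσe : ((σ 1 1 : ℤ) : ZMod M) = ((unitL hℓ hℓM : (ZMod M)ˣ) : ZMod M))
    {X : Type*} [Fintype X] (coc : Gamma1 M → X → Gamma1 M) (hk : HolH →* HolH)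
    (hk_apply : ∀ (H : HolH) (τ : ℍ), (hk H : ℍ → ℂ) τ
      = heckeFun2 ℓ (H : ℍ → ℂ) ((compSL σ H : HolH) : ℍ → ℂ) τ)
    (hmult : ∀ H : HolH, (∀ γ ∈ Gamma1 M, IsEig γ H) → ∀ γ : Gamma1 M,
      compSL (γ : SL(2, ℤ)) (hk H)
        = algebraMap ℂ HolH (∏ x, mult ((coc γ x : Gamma1 M) : SL(2, ℤ)) H) * hk H)
    {m : ℕ} (hm : 0 < m) (f g : F1 M) (a b : A01 M) (H : HolH) (ha : a ≠ 0) (hb : b ≠ 0)
    (hfb : f * (b : F1 M) = (a : F1 M)) (hroot : IsRoot1 O m a b H)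
    (hg : (g : LaurentSeries Qb) = heckeSeries1 O hℓ hℓM f) :
    ∃ (a' b' : A01 M) (H' : HolH), a' ≠ 0 ∧ b' ≠ 0 ∧ g * (b' : F1 M) = (a' : F1 M) ∧
      IsRoot1 O m a' b' H' ∧
      ∀ γ : Gamma1 M, mult (γ : SL(2, ℤ)) H'
        = ∏ x, mult ((coc γ x : Gamma1 M) : SL(2, ℤ)) H := by
  have hθa : O.θ a ≠ 0 := theta_ne_zero O ha
  have hθb : O.θ b ≠ 0 := theta_ne_zero O hb
  have ha' : (a : F1 M) ≠ 0 := fun h0 => ha (Subtype.ext h0)
  have hb' : (b : F1 M) ≠ 0 := fun h0 => hb (Subtype.ext h0)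
  have hf0 : f ≠ 0 := by
    rintro rfl
    rw [zero_mul] at hfb
    exact ha' hfb.symm
  -- `hk` of an invariant function is invariant
  have hinv_hk : ∀ x : A01 M, x ≠ 0 → ∀ γ : Gamma1 M,
      compSL (γ : SL(2, ℤ)) (hk (O.θ x)) = hk (O.θ x) := by
    intro x hx γ
    have h1 := hmult (O.θ x) (fun δ hδ => isEig_of_compSL_eq (O.inv δ hδ x)) γ
    have h2 : ∏ y, mult ((coc γ y : Gamma1 M) : SL(2, ℤ)) (O.θ x) = 1 :=
      Finset.prod_eq_one fun y _ =>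
        mult_eq_one_of_compSL_eq (theta_ne_zero O hx) (O.inv _ (coc γ y).2 x)
    rw [h2, map_one, one_mul] at h1
    exact h1
  have hQ : ∀ x : A01 M, x ≠ 0 →
      HasQ iotaBar (heckeSeries1 O hℓ hℓM (x : F1 M)) ((hk (O.θ x) : HolH) : ℍ → ℂ) :=
    fun x hx => hasQ_of_apply O hℓ hℓM hσ0 hσe x (hk_apply (O.θ x))
      (hinv_hk x hx ⟨_, T_mem_Gamma1' M⟩)
  -- the series identity `g · T b = T a`
  have hTmul : heckeSeries1 O hℓ hℓM f * heckeSeries1 O hℓ hℓM (b : F1 M)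
      = heckeSeries1 O hℓ hℓM (a : F1 M) := by
    rw [← heckeSeries1_mul, hfb]
  -- `g = a₀ / b₀`
  obtain ⟨a₀, b₀, hb₀, e₀⟩ := Fermat.Agent.S48.G1.F1.exists_mul_eq g
  have hb₀' : b₀ ≠ 0 := by
    rintro rfl
    exact hb₀ rfl
  have hg0 : g ≠ 0 := by
    rintro rfl
    exact heckeSeries1_ne_zero O hℓ hℓM hf0 hg.symm
  have ha₀ : a₀ ≠ 0 := by
    rintro rfl
    exact mul_ne_zero hg0 hb₀ e₀
  -- the function identity `hk (θ a) · θ b₀ = θ a₀ · hk (θ b)`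
  have hstar : hk (O.θ a) * O.θ b₀ = O.θ a₀ * hk (O.θ b) := by
    apply Subtype.ext
    have h1 : HasQ iotaBar
        (heckeSeries1 O hℓ hℓM (a : F1 M) * ((b₀ : F1 M) : LaurentSeries Qb))
        (((hk (O.θ a) : HolH) : ℍ → ℂ) * ((O.θ b₀ : HolH) : ℍ → ℂ)) :=
      (hQ a ha).mul (O.hasQ b₀)
    have h2 : HasQ iotaBar
        (((a₀ : F1 M) : LaurentSeries Qb) * heckeSeries1 O hℓ hℓM (b : F1 M))
        (((O.θ a₀ : HolH) : ℍ → ℂ) * ((hk (O.θ b) : HolH) : ℍ → ℂ)) :=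
      (O.hasQ a₀).mul (hQ b hb)
    have hser : heckeSeries1 O hℓ hℓM (a : F1 M) * ((b₀ : F1 M) : LaurentSeries Qb)
        = ((a₀ : F1 M) : LaurentSeries Qb) * heckeSeries1 O hℓ hℓM (b : F1 M) := by
      have e₀' : (g : LaurentSeries Qb) * ((b₀ : F1 M) : LaurentSeries Qb)
          = ((a₀ : F1 M) : LaurentSeries Qb) :=
        congrArg (fun x : F1 M => (x : LaurentSeries Qb)) e₀
      rw [← e₀', ← hTmul, hg]
      ring
    rw [hser] at h1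
    exact h1.fun_unique h2
  -- the division
  have hZ0 : hk (O.θ b) ≠ 0 := by
    intro h0
    have h1 := hQ b hb
    rw [h0] at h1
    exact heckeSeries1_ne_zero O hℓ hℓM hb' (series_unique h1 (hasQ_zero iotaBar))
  have hY0 : O.θ a₀ * O.θ b₀ ^ (m - 1) ≠ 0 :=
    mul_ne_zero (theta_ne_zero O ha₀) (pow_ne_zero _ (theta_ne_zero O hb₀'))
  have hpow : (hk H * O.θ b₀) ^ m = (O.θ a₀ * O.θ b₀ ^ (m - 1)) * hk (O.θ b) ^ m := by
    have h0 : H ^ m = O.θ a * O.θ b ^ (m - 1) := hroot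
    have hX : hk H ^ m = hk (O.θ a) * hk (O.θ b) ^ (m - 1) := by
      rw [← map_pow, h0, map_mul, map_pow]
    obtain ⟨k, rfl⟩ : ∃ k, m = k + 1 := ⟨m - 1, (Nat.sub_add_cancel hm).symm⟩
    rw [Nat.add_sub_cancel] at hX ⊢
    rw [mul_pow, hX]
    linear_combination (hk (O.θ b) ^ k * O.θ b₀ ^ k) * hstar
  obtain ⟨H', hH', hXZ⟩ := exists_mul_eq_of_pow_eq hm.ne' hY0 hZ0 hpow
  have hH'0 : H' ≠ 0 := by
    rintro rfl
    rw [zero_pow hm.ne'] at hH'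
    exact hY0 hH'.symm
  refine ⟨a₀, b₀, H', ha₀, hb₀', e₀, hH', fun γ => ?_⟩
  apply mult_eq_of_eq hH'0
  have heig : ∀ δ ∈ Gamma1 M, IsEig δ H := by
    intro δ hδ
    apply isEig_of_pow hm
    have h0 : H ^ m = O.θ a * O.θ b ^ (m - 1) := hroot
    rw [h0, map_mul, map_pow, O.inv δ hδ a, O.inv δ hδ b]
  have h1 : compSL (γ : SL(2, ℤ)) (hk H * O.θ b₀)
      = algebraMap ℂ HolH (∏ x, mult ((coc γ x : Gamma1 M) : SL(2, ℤ)) H) * (hk H * O.θ b₀) := by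
    rw [map_mul, hmult H heig γ, O.inv _ γ.2 b₀, mul_assoc]
  rw [hXZ, map_mul, hinv_hk b hb γ, ← mul_assoc] at h1
  exact mul_right_cancel₀ hZ0 h1

end Fermat.Agent.S48.G1.Producer1.HeckeRootCore
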