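/-
PROGRAM DS (S48) / G1, AREA P, row P.4 — THE BRICK `Bricks1.HeckeRoot1` (helper206).

`heckeRoot1 (M) [NeZero M] (O : Objs M) : Bricks1.HeckeRoot1 O`, for an ARBITRARY `O : Objs M`
(no hypothesis on `M`, no membership input).

* `heckeRoot1_of_heckeFun1` : the brick at a prime `ℓ ∤ M` from a multiplicative operator `hk` on
  holomorphic functions computing `H ↦ ∏ₓ H ∘ rep1 x` (`HeckeMem.heckeFun1`) and obeying the
  multiplier law for the cocycle of `Gamma1Coset.sys1`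
  (= `HeckeRootCore.heckeRoot1_of_hk` at `σ := Gamma1Coset.sig M hℓ hℓM`);
* `heckeRoot1` : the instance `hk := Betti1.heckeHol1 M hℓ hℓM` (`Betti1/HolHecke1`, helper165).
-/
import Fermat.Agent.S48.G1.Producer1.HeckeRootCore
import Fermat.Agent.S48.G1.F1.HeckeMem
import Fermat.Agent.S48.Betti1.HolHecke1

set_option autoImplicit false

noncomputable section

open scoped MatrixGroups
open CongruenceSubgroup ModularCurve UpperHalfPlane HahnSeries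
open Fermat.Agent.S24.HolH
open Fermat.Agent.S30.KummerChar
open Fermat.Agent.S48.G1.F1 Fermat.Agent.S48.G1.Avatar2
open Fermat.Agent.S48.G1.Gamma1Coset (sig sig_mem sig_entry sys1)
open Fermat.Agent.S48.G1.F1.HeckeMem (heckeFun1 heckeFun1_eq)

namespace Fermat.Agent.S48.G1.Producer1.HeckeRoot1

variable {M : ℕ} [NeZero M]

/-- The lower right entry of `σ_ℓ` is the unit `unitL` of the diamond in `heckeSeries1`. -/
theorem sig_entry_unitL {ℓ : ℕ} (hℓ : ℓ.Prime) (hℓM : ¬ ℓ ∣ M) :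
    ((sig M hℓ hℓM 1 1 : ℤ) : ZMod M) = ((unitL hℓ hℓM : (ZMod M)ˣ) : ZMod M) := by
  rw [sig_entry]
  exact (Fermat.Agent.S48.Hecke1.coe_primeUnit hℓ hℓM).symm

/-- `heckeFun1` in the shape of `Avatar2.heckeFun2`. -/
theorem heckeFun1_eq_heckeFun2 {ℓ : ℕ} [NeZero ℓ] (hℓ : ℓ.Prime) (hℓM : ¬ ℓ ∣ M) (H : HolH)
    (τ : ℍ) :
    heckeFun1 M hℓ hℓM (H : ℍ → ℂ) τ
      = heckeFun2 ℓ (H : ℍ → ℂ) ((compSL (sig M hℓ hℓM) H : HolH) : ℍ → ℂ) τ := by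
  rw [heckeFun1_eq]
  rfl

/-- **The brick `HeckeRoot1` at `ℓ`** from an operator `hk` on `HolH` computing
`H ↦ ∏ₓ H ∘ rep1 x` and obeying the multiplier law. -/
theorem heckeRoot1_of_heckeFun1 (O : Objs M) {ℓ : ℕ} [NeZero ℓ] (hℓ : ℓ.Prime)
    (hℓM : ¬ ℓ ∣ M) (hk : HolH →* HolH)
    (hk_apply : ∀ (H : HolH) (τ : ℍ),
      (hk H : ℍ → ℂ) τ = heckeFun1 M hℓ hℓM (H : ℍ → ℂ) τ)
    (hmult : ∀ H : HolH, (∀ γ ∈ Gamma1 M, IsEig γ H) → ∀ γ : Gamma1 M,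
      compSL (γ : SL(2, ℤ)) (hk H)
        = algebraMap ℂ HolH (∏ x : OnePoint (ZMod ℓ),
            mult (((sys1 M hℓ hℓM).coc γ x : Gamma1 M) : SL(2, ℤ)) H) * hk H)
    {m : ℕ} (hm : 0 < m) (f g : F1 M) (a b : A01 M) (H : HolH) (ha : a ≠ 0) (hb : b ≠ 0)
    (hfb : f * (b : F1 M) = (a : F1 M)) (hroot : IsRoot1 O m a b H)
    (hg : (g : LaurentSeries Qb) = heckeSeries1 O hℓ hℓM f) :
    ∃ (a' b' : A01 M) (H' : HolH), a' ≠ 0 ∧ b' ≠ 0 ∧ g * (b' : F1 M) = (a' : F1 M) ∧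
      IsRoot1 O m a' b' H' ∧
      ∀ γ : Gamma1 M, mult (γ : SL(2, ℤ)) H' =
        ∏ x : OnePoint (ZMod ℓ),
          mult (((sys1 M hℓ hℓM).coc γ x : Gamma1 M) : SL(2, ℤ)) H :=
  HeckeRootCore.heckeRoot1_of_hk O hℓ hℓM (sig_mem M hℓ hℓM) (sig_entry_unitL hℓ hℓM)
    (sys1 M hℓ hℓM).coc hk
    (fun H τ => (hk_apply H τ).trans (heckeFun1_eq_heckeFun2 hℓ hℓM H τ))
    hmult hm f g a b H ha hb hfb hroot hg

/-- **The brick `HeckeRoot1`** (row P.4), for an arbitrary `O : Objs M`. -/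
theorem heckeRoot1 (M : ℕ) [NeZero M] (O : Objs M) : Bricks1.HeckeRoot1 O :=
  fun _ _ hℓ hℓM _ hm f g a b H ha hb hfb hroot hg =>
    heckeRoot1_of_heckeFun1 O hℓ hℓM (Fermat.Agent.S48.Betti1.heckeHol1 M hℓ hℓM)
      (fun H τ => Fermat.Agent.S48.Betti1.heckeHol1_apply M hℓ hℓM H τ)
      (fun _ heig γ => Fermat.Agent.S48.Betti1.compSL_heckeHol1 M hℓ hℓM heig γ)
      hm f g a b H ha hb hfb hroot hg

end Fermat.Agent.S48.G1.Producer1.HeckeRoot1
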