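/-
PROGRAM DS (S48) / G1, AREA P, ROW P.2 (helper34): THE BRICK `Bricks1.Inj1 O` at level `Γ₁(M)`.

`Inj1 O`: a `Γ₁(M)`-invariant holomorphic `m`-th root of an avatar `O.θ x` (`x ∈ A01 M`) is the
avatar of an element of `F1 M`.

Nothing generic is typed here: the generic brick is helper162's `InjGen.inj1_of_mem`.  This file
supplies its first input for an ARBITRARY `O : Objs M`:

* `Objs.theta_eq_theta1`   : `O.θ = Theta1.theta1 iotaBar M hM` (uniqueness of the holomorphic
                              function with a given `q`-expansion);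
* `Objs.theta_mem_cuspMod` : every avatar `O.θ x` has moderate growth at all cusps (exit (I2),
                              from helper205's `GrowthG.theta1_mem_cuspMod`);

and states the second input, the rationality principle (exit (I4) of area F.2,
`mem_F1_of_invariant`), as the `Prop` `RatPrinciple1 M`:

* `inj1_of_ratPrinciple`   : `RatPrinciple1 M → Bricks1.Inj1 O`.
-/
import Mathlib
import Fermat.Agent.S48.G1.InjGen
import Fermat.Agent.S48.G1.F1.Theta1
import Fermat.Agent.S48.G1.F1.GrowthG

set_option autoImplicit false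

noncomputable section

open scoped MatrixGroups
open CongruenceSubgroup UpperHalfPlane
open Fermat.Agent.S24.HolH Fermat.Agent.S24.Theta Fermat.Agent.S24.Degree
open Fermat.Agent.S48.G1.F1

namespace Fermat.Agent.S48.G1.Producer1

/-- The avatar map of any `O : Objs M` is the canonical one. -/
theorem Objs.theta_eq_theta1 {M : ℕ} (hM : 2 ≤ M) (O : Objs M) :
    O.θ = Theta1.theta1 iotaBar M hM :=
  RingHom.ext fun x => (Theta1.theta1_eq_of_hasQ hM (O.hasQ x)).symm

/-- **(I2) for an arbitrary `O`**: every avatar has moderate growth at all cusps. -/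
theorem Objs.theta_mem_cuspMod {M : ℕ} (hM : 2 ≤ M) (O : Objs M) (x : A01 M) :
    O.θ x ∈ cuspMod := by
  rw [O.theta_eq_theta1 hM]
  exact GrowthG.theta1_mem_cuspMod iotaBar hM x

/-- Every `SL(2, ℤ)`-translate of an avatar has moderate growth at all cusps. -/
theorem Objs.compSL_theta_mem_cuspMod {M : ℕ} (hM : 2 ≤ M) (O : Objs M) (x : A01 M)
    (g : SL(2, ℤ)) : compSL g (O.θ x) ∈ cuspMod := by
  rw [O.theta_eq_theta1 hM]
  exact GrowthG.compSL_theta1_mem_cuspMod iotaBar hM x g

/-- **The rationality principle for `F1 M`** (exit (I4) of area F.2, `mem_F1_of_invariant`): a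
`Γ₁(M)`-invariant holomorphic function of moderate growth at all cusps whose `q`-expansion has
coefficients in `ℚ̄` has its `q`-expansion in `F1 M`. -/
def RatPrinciple1 (M : ℕ) : Prop :=
  ∀ (f : LaurentSeries Qb) (φ : HolH), HasQ iotaBar f (φ : ℍ → ℂ) →
    (∀ γ : SL(2, ℤ), γ ∈ Gamma1 M → compSL γ φ = φ) → φ ∈ cuspMod → f ∈ F1 M

/-- **The brick `Bricks1.Inj1 O`** from the rationality principle. -/
theorem inj1_of_ratPrinciple (M : ℕ) [NeZero M] (hM : 2 ≤ M) (O : Objs M)
    (h : RatPrinciple1 M) : Bricks1.Inj1 O :=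
  Fermat.Agent.S48.G1.InjGen.inj1_of_mem O (O.theta_mem_cuspMod hM) h

end Fermat.Agent.S48.G1.Producer1
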