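/-
PROGRAM DS (S48) / G1, AREA P, ROW P.2 (helper34): THE BRICK `Bricks1.Inj1 O`, FINAL FORM.

`inj1 M hM O : Bricks1.Inj1 O` for every `O : Objs M`, `2 ≤ M`: the rationality principle
`RatPrinciple1 M` of `Producer1/Inj1.lean` is helper15's exit (I4)
`F1.Invariant1.mem_F1_of_invariant` (a `Γ₁(M)`-invariant holomorphic function of moderate growth
at all cusps with a `ℚ̄`-rational `q`-expansion has its `q`-expansion in `F1 M`).
-/
import Mathlib
import Fermat.Agent.S48.G1.Producer1.Inj1
import Fermat.Agent.S48.G1.F1.Invariant1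

set_option autoImplicit false

noncomputable section

open scoped MatrixGroups
open CongruenceSubgroup UpperHalfPlane
open Fermat.Agent.S24.HolH Fermat.Agent.S24.Theta Fermat.Agent.S24.Degree
open Fermat.Agent.S48.G1.F1

namespace Fermat.Agent.S48.G1.Producer1

/-- **The rationality principle for `F1 M`** (exit (I4) of area F.2). -/
theorem ratPrinciple1 {M : ℕ} (hM : 2 ≤ M) : RatPrinciple1 M :=
  fun f φ hf hinv hmod =>
    Fermat.Agent.S48.G1.F1.Invariant1.mem_F1_of_invariant iotaBar hM f φ hf hinv hmod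

/-- **The brick `Bricks1.Inj1 O`**: a `Γ₁(M)`-invariant holomorphic `m`-th root of an avatar
`O.θ x` is the avatar of an element of `F1 M`. -/
theorem inj1 (M : ℕ) [NeZero M] (hM : 2 ≤ M) (O : Objs M) : Bricks1.Inj1 O :=
  inj1_of_ratPrinciple M hM O (ratPrinciple1 hM)

end Fermat.Agent.S48.G1.Producer1
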