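import Fermat.Agent.S48.G1.Producer1.Bricks1
import Fermat.Agent.S48.G1.Producer1.Model1
import Fermat.Agent.S48.G1.F1.ConverseGen
import Fermat.Agent.S48.G1.F1.PlaceFin1
import Fermat.Agent.S48.G1.F1.PlaceCusp1

set_option autoImplicit false
set_option linter.dupNamespace false

/-!
# G1 (S48), AREA P, row P.3 (converse half): the Kummer converse at level `Γ₁(M)` (helper250)

`converse1 M hM O` : for ANY `O : Objs M` (`2 ≤ M`), if `f = a / b` (`a b : A01 M`) has a
holomorphic `m`-th root `H` on `ℍ` (`IsRoot1 O m a b H`) whose multiplier is trivial on the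
parabolic and elliptic elements of `Γ₁(M)` (`Betti1.parEll (Gamma1 M)`, i.e. `tr² ≤ 4`), then
`m ∣ div f` at ALL places of `F1 M` (`DivBy1 M m f`).

The statement is literally the body of `Producer1.Surj1.Converse1 O` (helper29), so
`Surj1.surj1_of_converse hM O (Converse1.converse1 M hM O) : Bricks1.Surj1 O`.

Proof: `ConverseGen.divBy_of_root` (generic assembly) at `Γ := Gamma1 M`, `F₀ := A01 M`,
`θ := Theta1.theta1 iotaBar M hM` (`= O.θ` by `Model1.theta_eq_theta1`), with
* the finite places from `PlaceFin1.hfin1_Gamma1` (helper86: place → point of `Γ₁(M) \ ℍ`),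
* the poles of `j` from `PlaceCusp1.hcusp1_of_trace` (helper147: place → cusp, analytic order),
* the elliptic hypothesis from `PlaceCusp1.hell1_of_trace`.
-/

noncomputable section

open scoped MatrixGroups
open CongruenceSubgroup ModularCurve AlgebraicCurve UpperHalfPlane
open Fermat.Agent.S24.HolH Fermat.Agent.S24.Theta Fermat.Agent.S24
open Fermat.Agent.S30.KummerChar
open Fermat.Agent.S48.G1.F1

namespace Fermat.Agent.S48.G1.Producer1.Converse1

/-- The root relation of `IsRoot1 O` in terms of `Theta1.theta1`. -/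
theorem isRoot1_theta1 {M : ℕ} (hM : 2 ≤ M) (O : Objs M) {m : ℕ} {a b : A01 M} {H : HolH}
    (h : IsRoot1 O m a b H) :
    H ^ m = Theta1.theta1 iotaBar M hM a * Theta1.theta1 iotaBar M hM b ^ (m - 1) := by
  have h1 : H ^ m = O.θ a * O.θ b ^ (m - 1) := h
  rwa [Model1.theta_eq_theta1 O hM] at h1

/-- **The Kummer converse at level `Γ₁(M)`** (`= Surj1.Converse1 O`, spelled out): a holomorphic
`m`-th root of `f = a / b` with multiplier trivial on the parabolic and elliptic elements of
`Γ₁(M)` forces `m ∣ div f` at every place of `F1 M`. -/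
theorem converse1 (M : ℕ) [NeZero M] (hM : 2 ≤ M) (O : Objs M) :
    ∀ (m : ℕ), 0 < m → ∀ (f : F1 M) (a b : A01 M) (H : HolH), a ≠ 0 → b ≠ 0 →
      f * (b : F1 M) = (a : F1 M) → IsRoot1 O m a b H →
      (∀ γ : Gamma1 M, γ ∈ Fermat.Agent.S48.Betti1.parEll (Gamma1 M) →
        mult (γ : SL(2, ℤ)) H = 1) →
      DivBy1 M m f := by
  intro m hm f a b H ha hb hab hroot hpe v
  have h := isRoot1_theta1 hM O hroot
  have hpe' : ∀ γ ∈ Gamma1 M,
      ((γ : SL(2, ℤ)) : Matrix (Fin 2) (Fin 2) ℤ).trace ^ 2 ≤ 4 → mult γ H = 1 :=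
    fun γ hγ htr => hpe ⟨γ, hγ⟩ htr
  exact Fermat.Agent.S48.G1.ConverseGen.divBy_of_root (Gamma1 M) (A01 M)
    (Theta1.theta1 iotaBar M hM) (Degree1.jF1 M)
    (Theta1.theta1_injective hM)
    (fun g hg x => Theta1.compSL_theta1_of_mem_Gamma1 hM hg x) hm ha hb h
    (PlaceCusp1.hell1_of_trace hpe')
    (PlaceFin1.hfin1_Gamma1 iotaBar hM (Degree1.jF1 M) (Degree1.coe_jF1 M))
    (PlaceCusp1.hcusp1_of_trace iotaBar hM (Degree1.jF1 M) (Degree1.coe_jF1 M) hm ha hb h hpe')
    f hab v

end Fermat.Agent.S48.G1.Producer1.Converse1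

end
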