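import Fermat.Agent.S48.G1.Producer1.Surj1
import Fermat.Agent.S48.G1.Producer1.Converse1

set_option autoImplicit false
set_option linter.dupNamespace false

/-!
# G1 (S48), AREA P, row P.3: the brick `Surj1` at level `Γ₁(M)`, hypothesis-free (helper29)

`surj1 M hM O : Bricks1.Surj1 O` for ANY `O : Objs M` (`2 ≤ M`): every `μ_m`-valued character of
`Γ₁(M)` trivial on the parabolic and elliptic elements is the Kummer character of a function
`f` of `F1 M` with `m ∣ div f` at every place.

Proof: `Surj1.surj1_of_converse` (the Kummer root of the generic theory `S48/G1/SurjGen` on the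
generating system `Surj1.genSys1`) fed with the Kummer converse `Converse1.converse1`
(helper250: `ConverseGen.divBy_of_root` + place → point (`PlaceFin1`) + place → cusp
(`PlaceCusp1`)).
-/

noncomputable section

open Fermat.Agent.S48.G1.F1

namespace Fermat.Agent.S48.G1.Producer1.Surj1Final

/-- The Kummer converse in the bundled form `Surj1.Converse1 O`. -/
theorem converse1 (M : ℕ) [NeZero M] (hM : 2 ≤ M) (O : Objs M) : Surj1.Converse1 O :=
  Converse1.converse1 M hM O

/-- **The brick `Surj1` at level `Γ₁(M)`, hypothesis-free.** -/
theorem surj1 (M : ℕ) [NeZero M] (hM : 2 ≤ M) (O : Objs M) : Bricks1.Surj1 O :=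
  Surj1.surj1_of_converse hM O (converse1 M hM O)

end Fermat.Agent.S48.G1.Producer1.Surj1Final

end
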