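/-
PROGRAM DS (S48) / G1, AREA P (helper13): THE PRODUCER IS CLOSED MODULO `K1_1`.

All the bricks of `Producer1/Bricks1.lean` except `K1_1` (area K) are theorems on main:

* `objs1 M hM`, `root1`, `parEll1`        (`Producer1/Model1.lean`, helper51);
* `inj1`                                  (`Producer1/Inj1Final.lean`, helper34; (I4) helper15);
* `Surj1Final.surj1`                      (`Producer1/Surj1Final.lean`, helper29; converse
                                           helper250 / helper206; cusps helper147; points helper86);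
* `HeckeRoot1.heckeRoot1`                 (`Producer1/HeckeRoot1.lean`, helper206 / helper165);
* `F1.ClosedInst.closed1`                 (`F1/ClosedInst.lean`, helper130 / helper103 / helper272);
* `ES.Brick.gauss1`                       (`ES/Brick.lean`, helper128 / helper126).

Hence:

* `bricks1`               : the six bricks at one `O : Objs M`, for every `2 ≤ M`;
* `nonempty_es1Data_of_k1_1` : the Eichler–Shimura datum at one level from `K1_1 M`;
* `producerExitB_of_k1`   : the ROUTE B exit of G1 (DEAL #3 (R6)) from `K1_1` at the levels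
                            divisible by `2` or `3`;
* `producerExitDS_of_k1`  : the ROUTE A exit (`Ops.ProducerExitDS`) from `K1_1` at all `2 ≤ M`.
-/
import Mathlib
import Fermat.Agent.S48.G1.Producer1.ExitBOf
import Fermat.Agent.S48.G1.Producer1.Model1
import Fermat.Agent.S48.G1.Producer1.Inj1Final
import Fermat.Agent.S48.G1.Producer1.Surj1Final
import Fermat.Agent.S48.G1.Producer1.HeckeRoot1
import Fermat.Agent.S48.G1.F1.ClosedInst

set_option autoImplicit false

namespace Fermat.Agent.S48.G1.Producer1.ExitB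

open Fermat.Agent.S48.G1 Fermat.Agent.S48.G1.Producer1

/-- **All the bricks of area P and F at one `O`**, for every level `2 ≤ M`. -/
theorem bricks1 (M : ℕ) [NeZero M] (hM : 2 ≤ M) :
    ∃ O : Objs M, Bricks1.Root1 O ∧ Bricks1.ParEll1 O ∧ Bricks1.Inj1 O ∧ Bricks1.Surj1 O ∧
      Bricks1.HeckeRoot1 O ∧ Bricks1.Closed1 O :=
  ⟨objs1 M hM, root1 _, parEll1 M hM _, inj1 M hM _, Surj1Final.surj1 M hM _,
    HeckeRoot1.heckeRoot1 M _, Fermat.Agent.S48.G1.F1.ClosedInst.closed1 M hM _⟩

/-- **One level**: the Eichler–Shimura datum at level `Γ₁(M)` (`2 ≤ M`) and any prime `l`, from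
the single brick `K1_1 M`. -/
theorem nonempty_es1Data_of_k1_1 (M l : ℕ) [NeZero M] [Fact l.Prime] (hM : 2 ≤ M)
    (hK : Bricks1.K1_1 M) : Nonempty (ES1Data M l (Ops.Top M) (Ops.Dop M)) := by
  obtain ⟨O, hRoot, hParEll, hInj, hSurj, hHR, hC⟩ := bricks1 M hM
  exact nonempty_es1Data_at M l O hRoot hParEll hInj hSurj hHR hC hK

/-- **ROUTE B exit of G1 modulo `K1_1`**: the producer at every level divisible by `2` or `3`,
from `K1_1` at those levels. -/
theorem producerExitB_of_k1
    (hK : ∀ (M : ℕ) [NeZero M], (2 ∣ M ∨ 3 ∣ M) → Bricks1.K1_1 M)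
    (M l : ℕ) [NeZero M] [Fact l.Prime] (hl : 5 ≤ l) (h23 : 2 ∣ M ∨ 3 ∣ M) :
    Nonempty (ES1Data M l (Ops.Top M) (Ops.Dop M)) :=
  producerExitB_of (fun M _ hM => bricks1 M hM) hK M l hl h23

/-- **ROUTE A exit of G1 modulo `K1_1`**: `Ops.ProducerExitDS` from `K1_1` at all levels
`2 ≤ M`. -/
theorem producerExitDS_of_k1 (hK : ∀ M : ℕ, 2 ≤ M → Bricks1.K1_1 M) : Ops.ProducerExitDS :=
  Assembly1.producerExitDS_of
    (fun M hM => by
      rcases Nat.eq_zero_or_pos M with h0 | h0
      · omega
      · haveI : NeZero M := ⟨h0.ne'⟩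
        obtain ⟨O, hRoot, hParEll, hInj, hSurj, hHR, hC⟩ := bricks1 M hM
        exact ⟨O, hRoot, hParEll, hInj, hSurj, hHR, hC⟩)
    (fun M _ => ES.Brick.gauss1 M) hK

end Fermat.Agent.S48.G1.Producer1.ExitB
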