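/-
PROGRAM DS (S48) / G1, AREA P (helper13): THE PRODUCER MODULO THE SINGLE PROP `GaussJ1`.

`Producer1/ExitBK.lean` (the producer modulo `K1_1`) composed with the exit of area K,
`K1/Main.lean` (helper46): `K1_1` from `K1.Final1.GaussJ1` (the Gauss input of the tower
`F1(M) / F₀(M) / ℚ(j)`, row K.2.inst).

* `producerExitB_of_gaussJ1`  : ROUTE B (levels divisible by `2` or `3`), the exit of G1 DEAL #3;
* `producerExitDS_of_gaussJ1` : ROUTE A (`Ops.ProducerExitDS`, every level).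

Both take `GaussJ1` only at the levels `2 ≤ M` divisible by `2` or `3`.
-/
import Mathlib
import Fermat.Agent.S48.G1.Producer1.ExitBK
import Fermat.Agent.S48.G1.K1.Main

set_option autoImplicit false

namespace Fermat.Agent.S48.G1.Producer1.ExitB

open Fermat.Agent.S48.G1 Fermat.Agent.S48.G1.Producer1

/-- **ROUTE B exit of G1 modulo `GaussJ1`.** -/
theorem producerExitB_of_gaussJ1
    (hg : ∀ M : ℕ, 2 ≤ M → (2 ∣ M ∨ 3 ∣ M) → Fermat.Agent.S48.G1.K1.Final1.GaussJ1 M)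
    (M l : ℕ) [NeZero M] [Fact l.Prime] (hl : 5 ≤ l) (h23 : 2 ∣ M ∨ 3 ∣ M) :
    Nonempty (ES1Data M l (Ops.Top M) (Ops.Dop M)) :=
  producerExitB_of_k1
    (fun M' _ h23' => by
      have hM' : 2 ≤ M' := by
        have hM0 : 0 < M' := Nat.pos_of_ne_zero (NeZero.ne M')
        rcases h23' with h | h
        · exact Nat.le_of_dvd hM0 h
        · exact le_trans (by norm_num) (Nat.le_of_dvd hM0 h)
      exact Fermat.Agent.S48.G1.K1.Main.k1_1_B M' hM' h23' (hg M' hM' h23'))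
    M l hl h23

/-- **ROUTE A exit of G1 modulo `GaussJ1`.** -/
theorem producerExitDS_of_gaussJ1
    (hg : ∀ M : ℕ, 2 ≤ M → (2 ∣ M ∨ 3 ∣ M) → Fermat.Agent.S48.G1.K1.Final1.GaussJ1 M) :
    Ops.ProducerExitDS :=
  producerExitDS_of_k1 (fun M hM => Fermat.Agent.S48.G1.K1.Main.k1_1_A hg M hM)

end Fermat.Agent.S48.G1.Producer1.ExitB
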