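/-
PROGRAM DS (S48) / G1 (helper13): THE EXIT OF G1 — THE PRODUCER AT LEVEL `Γ₁(M)`, UNCONDITIONAL.

  `producerExitB (M l : ℕ) [NeZero M] [Fact l.Prime] (hl : 5 ≤ l) (h23 : 2 ∣ M ∨ 3 ∣ M) :
      Nonempty (ES1Data M l (Ops.Top M) (Ops.Dop M))`                      (ROUTE B, G1 DEAL #3)
  `producerExitDS : Ops.ProducerExitDS`                                     (ROUTE A, every level)

= `Producer1/ExitBG.lean` (areas P + F + ES + the exit of area K, modulo `K1.Final1.GaussJ1`)
applied to `K1.GaussJ1.gaussJ1` (area K, row K.2.inst: helper117, helper83, helper216, helper46,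
helper143, helper239, helper187, helper38, helper164, helper30, helper109, …).
-/
import Mathlib
import Fermat.Agent.S48.G1.Producer1.ExitBG
import Fermat.Agent.S48.G1.K1.GaussJ1

set_option autoImplicit false

namespace Fermat.Agent.S48.G1.Producer1.ExitB

open Fermat.Agent.S48.G1 Fermat.Agent.S48.G1.Producer1

/-- **THE EXIT OF G1 (ROUTE B).**  Eichler–Shimura matrix data with diamond operators exist at
every level `Γ₁(M)` with `2 ∣ M` or `3 ∣ M` and every prime `l ≥ 5`. -/
theorem producerExitB (M l : ℕ) [NeZero M] [Fact l.Prime] (hl : 5 ≤ l) (h23 : 2 ∣ M ∨ 3 ∣ M) :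
    Nonempty (ES1Data M l (Ops.Top M) (Ops.Dop M)) :=
  producerExitB_of_gaussJ1
    (fun M' hM' h23' => Fermat.Agent.S48.G1.K1.GaussJ1.gaussJ1 M' hM' h23') M l hl h23

/-- **THE EXIT OF G1 (ROUTE A).**  The producer at every level and every prime. -/
theorem producerExitDS : Ops.ProducerExitDS :=
  producerExitDS_of_gaussJ1
    (fun M' hM' h23' => Fermat.Agent.S48.G1.K1.GaussJ1.gaussJ1 M' hM' h23')

end Fermat.Agent.S48.G1.Producer1.ExitB
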