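import Fermat.Agent.S48.G1.Producer1.Surj1

set_option autoImplicit false
set_option linter.dupNamespace false

/-!
# G1 (S48), AREA P: the brick `Inj1` at level `Γ₁(M)`, hypothesis-free (helper29)

`inj1 M hM O : Bricks1.Inj1 O` for every `O : Objs M`, `2 ≤ M`, WITHOUT the rationality
principle (I4) and without any growth condition: it is the generic `SurjGen.GenSys.exists_root_of_inv`
(roots of good series are good, `FracG = ℂ(gens)` by Lagrange interpolation, and injectivity of
Kummer classes under the base change `ℚ̄ → ℂ`) applied to the generating system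
`Surj1.genSys1 M hM` of `F1 M`, with `O.θ = thetaK` (`Surj1.theta_eq_thetaK`).
-/

noncomputable section

open scoped MatrixGroups
open CongruenceSubgroup ModularCurve UpperHalfPlane
open Fermat.Agent.S24.HolH Fermat.Agent.S24.Theta
open Fermat.Agent.S48.G1.F1 Fermat.Agent.S48.G1.SurjGen

namespace Fermat.Agent.S48.G1.Producer1.Inj1Free

/-- **The brick `Bricks1.Inj1 O`**: a `Γ₁(M)`-invariant holomorphic `m`-th root of an avatar
`O.θ x` (`x ∈ A01 M`) is the avatar of an element of `F1 M`. -/
theorem inj1 (M : ℕ) [NeZero M] (hM : 2 ≤ M) (O : Objs M) : Bricks1.Inj1 O := by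
  intro m hm x H hH hinv
  have hH' : H ^ m = (Surj1.genSys1 M hM).thetaK iotaBar (Surj1.toAdj x) := by
    rw [← Surj1.theta_eq_thetaK hM O x]
    exact hH
  obtain ⟨y, hy, hym, -⟩ := (Surj1.genSys1 M hM).exists_root_of_inv
    (Fermat.Agent.S48.G1.EisGen.Gamma_le_Gamma1 M) (Fermat.Agent.S48.G1.EisGen.T_mem_Gamma1 M)
    iotaBar hm (Surj1.toAdj x) H hH' hinv
  have hyF : y ∈ F1 M := by
    rw [F1_eq_adjoin]
    exact hy
  exact ⟨⟨y, hyF⟩, Subtype.ext hym⟩

end Fermat.Agent.S48.G1.Producer1.Inj1Free

end
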