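/-
PROGRAM DS (S48) / G1, AREA P (sub-captain helper13), row `Objs.unique` (helper16).

The analytic objects `Objs M` attached to the function field `F1 M` are UNIQUE: the fields pin
`θ` down (a holomorphic function is determined by its `q`-expansion) and then `dia`
(`θ` is injective, `F1 M = Frac (A01 M)`, and `Γ₀(M)` has an element with prescribed lower right
entry).  Hence `Objs M` is a subsingleton for every `M ≥ 1`, and any brick proved for ONE
`O : Objs M` holds for every `O`.
-/
import Mathlib
import Fermat.Agent.S48.G1.Producer1.Objects1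
import Fermat.Agent.S48.G1.F1.Gens
import Fermat.Agent.S48.Hecke1.Defs

set_option autoImplicit false

noncomputable section

open scoped MatrixGroups
open CongruenceSubgroup ModularCurve AlgebraicCurve UpperHalfPlane
open Fermat.Agent.S24.HolH Fermat.Agent.S24.Theta
open Fermat.Agent.S48.G1.F1

namespace Fermat.Agent.S48.G1.Producer1.ObjsUnique

/-- The avatar map is determined by the `q`-expansions. -/
theorem theta_eq {M : ℕ} (O O' : Objs M) : O.θ = O'.θ := by
  refine RingHom.ext fun x => ?_
  exact Subtype.ext ((O.hasQ x).fun_unique (O'.hasQ x))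

/-- The avatar map is injective. -/
theorem theta_inj {M : ℕ} (O : Objs M) : Function.Injective O.θ := by
  intro x y h
  have h1 := O.hasQ x
  have h2 := O.hasQ y
  rw [h] at h1
  have h3 := HasQ.unique h1 h2
  exact Subtype.ext (Subtype.ext h3)

/-- The diamonds agree on the coordinate ring. -/
theorem dia_eq_on_A01 {M : ℕ} [NeZero M] (O O' : Objs M) (u : (ZMod M)ˣ) (x : A01 M) :
    O.dia u (x : F1 M) = O'.dia u (x : F1 M) := by
  obtain ⟨y, hy, hy2⟩ := O.dia_spec u x
  obtain ⟨y', hy', hy2'⟩ := O'.dia_spec u x
  have hγ := Fermat.Agent.S48.Hecke1.diamondRep_mem M u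
  have hd := Fermat.Agent.S48.Hecke1.diamondRep_entry M u
  have e1 := hy2 _ hγ hd
  have e2 := hy2' _ hγ hd
  rw [← theta_eq O O'] at e2
  have e3 : y = y' := theta_inj O (e1.trans e2.symm)
  rw [hy, hy', e3]

/-- The diamond automorphisms are determined by the avatar map. -/
theorem dia_eq {M : ℕ} [NeZero M] (O O' : Objs M) : O.dia = O'.dia := by
  funext u
  refine AlgEquiv.ext fun f => ?_
  obtain ⟨a, b, hb, hfb⟩ := Fermat.Agent.S48.G1.F1.exists_mul_eq (M := M) f
  have h1 : O.dia u f * O.dia u (b : F1 M) = O.dia u (a : F1 M) := by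
    rw [← map_mul, hfb]
  have h2 : O'.dia u f * O'.dia u (b : F1 M) = O'.dia u (a : F1 M) := by
    rw [← map_mul, hfb]
  rw [dia_eq_on_A01 O O' u a, dia_eq_on_A01 O O' u b] at h1
  have hb' : O'.dia u (b : F1 M) ≠ 0 := by
    intro h0
    apply hb
    have := (O'.dia u).injective (h0.trans (map_zero _).symm)
    exact this
  exact mul_right_cancel₀ hb' (h1.trans h2.symm)

/-- **Uniqueness of the analytic objects.** -/
theorem objs_eq {M : ℕ} [NeZero M] (O O' : Objs M) : O = O' := by
  have hθ := theta_eq O O'
  have hd := dia_eq O O'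
  cases O
  cases O'
  simp only at hθ hd
  subst hθ
  subst hd
  rfl

instance subsingleton_objs (M : ℕ) [NeZero M] : Subsingleton (Objs M) :=
  ⟨objs_eq⟩

/-- Transport of any statement from one object to every object. -/
theorem transport {M : ℕ} [NeZero M] {P : Objs M → Prop} (O₀ : Objs M) (h : P O₀)
    (O : Objs M) : P O := by
  rw [objs_eq O O₀]
  exact h

end Fermat.Agent.S48.G1.Producer1.ObjsUnique
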