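/-
PROGRAM DS (S48) / G1, AREA P, DEAL #2 (2) — helper206.

The two `parEll` adapters for `±Γ₁(M)` (`F1.Gamma1pm M`), inputs `hell` / `hpar` of the Kummer
converse (`ConverseData.divBy_of_data` at `Γ := Gamma1pm M`): if `mult γ H = 1` for every
`γ ∈ Γ₁(M)` with `tr² ≤ 4` (`Betti1.parEll (Gamma1 M)`), then `mult γ H = 1` for every
`γ ∈ ±Γ₁(M)` with `tr² ≤ 4`, in particular for

* `mult_eq_one_of_fixed`  : the elements with a fixed point in `ℍ` (elliptic elements, `±1`);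
* `mult_eq_one_of_conj_T` : the conjugates of powers of `T` (parabolic elements).

The sign is harmless: `compSL (-γ) = compSL γ` (`Stab1.compSL_neg_eq`), so `mult (-γ) H = mult γ H`
(`mult_neg`) and `IsEig (-γ) H ↔ IsEig γ H` (`isEig_neg_iff`).
-/
import Fermat.Agent.S48.G1.Producer1.Bricks1
import Fermat.Agent.S48.G1.F1.Gamma1pm
import Fermat.Agent.S48.G1.F1.Stab1
import Fermat.Agent.S30.Producer.SurjBrick

set_option autoImplicit false

noncomputable section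

open scoped MatrixGroups
open CongruenceSubgroup UpperHalfPlane
open Fermat.Agent.S24.HolH
open Fermat.Agent.S30.KummerChar
open Fermat.Agent.S48.G1.F1
open Fermat.Agent.S30.Producer.SurjBrick (trace_sq_le_of_fixed trace_conj_T_zpow)

namespace Fermat.Agent.S48.G1.Producer1.ParEllPm

/-- `H` is an eigenfunction of `-γ` iff it is one of `γ`. -/
theorem isEig_neg_iff (γ : SL(2, ℤ)) (H : HolH) : IsEig (-γ) H ↔ IsEig γ H := by
  unfold IsEig
  rw [Stab1.compSL_neg_eq]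

/-- The multiplier only depends on the function `compSL γ H`. -/
theorem mult_congr {γ γ' : SL(2, ℤ)} {H : HolH} (h : compSL γ H = compSL γ' H) :
    mult γ H = mult γ' H := by
  unfold mult IsEig
  generalize compSL γ H = A at h ⊢
  subst h
  rfl

/-- The multiplier does not see the sign: `mult (-γ) H = mult γ H`. -/
theorem mult_neg (γ : SL(2, ℤ)) (H : HolH) : mult (-γ) H = mult γ H :=
  mult_congr (Stab1.compSL_neg_eq γ H)

/-- The trace square does not see the sign. -/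
theorem trace_neg_sq (γ : SL(2, ℤ)) :
    ((-γ : SL(2, ℤ)) : Matrix (Fin 2) (Fin 2) ℤ).trace ^ 2
      = (γ : Matrix (Fin 2) (Fin 2) ℤ).trace ^ 2 := by
  rw [Matrix.SpecialLinearGroup.coe_neg, Matrix.trace_neg, neg_sq]

/-- **`parEll` for `±Γ₁(M)`**: a multiplier system trivial on the elements of `Γ₁(M)` with
`tr² ≤ 4` is trivial on the elements of `±Γ₁(M)` with `tr² ≤ 4`. -/
theorem mult_eq_one_of_trace_sq_le {M : ℕ} {H : HolH}
    (hH : ∀ γ : Gamma1 M, γ ∈ Fermat.Agent.S48.Betti1.parEll (Gamma1 M) →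
      mult (γ : SL(2, ℤ)) H = 1) :
    ∀ γ ∈ Gamma1pm M, (γ : Matrix (Fin 2) (Fin 2) ℤ).trace ^ 2 ≤ 4 → mult γ H = 1 := by
  intro γ hγ htr
  rcases mem_Gamma1pm.mp hγ with h | h
  · exact hH ⟨γ, h⟩ htr
  · rw [← mult_neg]
    refine hH ⟨-γ, h⟩ ?_
    show ((-γ : SL(2, ℤ)) : Matrix (Fin 2) (Fin 2) ℤ).trace ^ 2 ≤ 4
    rw [trace_neg_sq]
    exact htr

/-- `hell` for `±Γ₁(M)`: the multiplier is trivial on the elements with a fixed point in `ℍ`. -/
theorem mult_eq_one_of_fixed {M : ℕ} {H : HolH}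
    (hH : ∀ γ : Gamma1 M, γ ∈ Fermat.Agent.S48.Betti1.parEll (Gamma1 M) →
      mult (γ : SL(2, ℤ)) H = 1) :
    ∀ γ ∈ Gamma1pm M, (∃ τ : ℍ, γ • τ = τ) → mult γ H = 1 := by
  rintro γ hγ ⟨τ, hτ⟩
  exact mult_eq_one_of_trace_sq_le hH γ hγ (trace_sq_le_of_fixed γ hτ)

/-- `hpar` for `±Γ₁(M)`: the multiplier is trivial on the conjugates of powers of `T`. -/
theorem mult_eq_one_of_conj_T {M : ℕ} {H : HolH}
    (hH : ∀ γ : Gamma1 M, γ ∈ Fermat.Agent.S48.Betti1.parEll (Gamma1 M) →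
      mult (γ : SL(2, ℤ)) H = 1) :
    ∀ γ ∈ Gamma1pm M, ∀ (g : SL(2, ℤ)) (n : ℤ), γ = g * ModularGroup.T ^ n * g⁻¹ →
      mult γ H = 1 := by
  intro γ hγ g n hγg
  refine mult_eq_one_of_trace_sq_le hH γ hγ ?_
  rw [hγg, trace_conj_T_zpow]
  norm_num

end Fermat.Agent.S48.G1.Producer1.ParEllPm
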