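import Mathlib
import Fermat.Agent.S48.G1.Producer1.ExitBOf
import Fermat.Agent.S48.G1.Producer1.Model1
import Fermat.Agent.S48.G1.Producer1.Inj1
import Fermat.Agent.S48.G1.Producer1.HeckeRoot1

/-!
# PROGRAM DS (S48) / G1 — the compiled SPINE of the producer (G1 DEAL #3a (4), helper128)

The Route B exit of G1 with every LANDED brick discharged (`objs1`, `root1`, `parEll1`,
`heckeRoot1`, `gauss1`, `inj1_of_ratPrinciple`), i.e. from exactly the FOUR inputs still open:

* `RatPrinciple1 M`              ((I4) `mem_F1_of_invariant`, area F.2),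
* `Bricks1.Surj1 (objs1 M hM)`   (area P.3),
* `Bricks1.Closed1 (objs1 M hM)` (area F.4),
* `Bricks1.K1_1 M`               (area K).

`frontier` is the statement at one level; `producerExitB_of_frontier` is the exit literal of
G1 DEAL #3 (R6).  When the four inputs are on main, `producerExitB` is a one-line application.
-/

set_option autoImplicit false

namespace Fermat.Agent.S48.G1.Producer1.Spine

open Fermat.Agent.S48.G1 Fermat.Agent.S48.G1.Producer1

/-- **The frontier of G1 at one level `2 ≤ M`.** -/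
theorem frontier (M l : ℕ) [NeZero M] [Fact l.Prime] (hM : 2 ≤ M)
    (hRat : RatPrinciple1 M) (hSurj : Bricks1.Surj1 (objs1 M hM))
    (hC : Bricks1.Closed1 (objs1 M hM)) (hK : Bricks1.K1_1 M) :
    Nonempty (ES1Data M l (Ops.Top M) (Ops.Dop M)) :=
  ExitB.nonempty_es1Data_at M l (objs1 M hM) (root1 _) (parEll1 M hM _)
    (inj1_of_ratPrinciple M hM _ hRat) hSurj (HeckeRoot1.heckeRoot1 M _) hC hK

theorem two_le_of_dvd23 {M : ℕ} [NeZero M] (h23 : 2 ∣ M ∨ 3 ∣ M) : 2 ≤ M := by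
  have hM0 : 0 < M := Nat.pos_of_ne_zero (NeZero.ne M)
  rcases h23 with h | h
  · exact Nat.le_of_dvd hM0 h
  · exact le_trans (by norm_num) (Nat.le_of_dvd hM0 h)

/-- **ROUTE B exit of G1 from the four open inputs.** -/
theorem producerExitB_of_frontier
    (hRat : ∀ (M : ℕ) [NeZero M], 2 ≤ M → RatPrinciple1 M)
    (hSurj : ∀ (M : ℕ) [NeZero M] (hM : 2 ≤ M), Bricks1.Surj1 (objs1 M hM))
    (hC : ∀ (M : ℕ) [NeZero M] (hM : 2 ≤ M), Bricks1.Closed1 (objs1 M hM))
    (hK : ∀ (M : ℕ) [NeZero M], (2 ∣ M ∨ 3 ∣ M) → Bricks1.K1_1 M)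
    (M l : ℕ) [NeZero M] [Fact l.Prime] (_hl : 5 ≤ l) (h23 : 2 ∣ M ∨ 3 ∣ M) :
    Nonempty (ES1Data M l (Ops.Top M) (Ops.Dop M)) :=
  frontier M l (two_le_of_dvd23 h23) (hRat M (two_le_of_dvd23 h23))
    (hSurj M (two_le_of_dvd23 h23)) (hC M (two_le_of_dvd23 h23)) (hK M h23)

end Fermat.Agent.S48.G1.Producer1.Spine
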