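import Fermat.Agent.S48.G1.Producer1.Bricks1
import Fermat.Agent.S48.G1.SurjGen
import Fermat.Agent.S48.G1.F1.Good1
import Fermat.Agent.S48.G1.F1.Good1J
import Fermat.Agent.S48.G1.F1.Stab1
import Fermat.Agent.S48.G1.F1.Gens
import Fermat.Agent.S48.G1.F1.PlaceFin
import Fermat.Agent.S30.DescentInst.Glue

set_option autoImplicit false
set_option linter.dupNamespace false

/-!
# G1 (S48), AREA P, row P.3: the brick `Surj1` at level `Γ₁(M)` (helper29)

* `genSys1 M hM : SurjGen.GenSys (Gamma1 M) M (gens1Q M)`: the generators `j(q^d)` (`d ∣ M`),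
  `gq M b` (`b ∈ (ℤ/M)ˣ`) of `F1Q M` form a generating system for `(Γ₁(M), M)`
  (`Good1J` + `Good1` + `Stab1`), so the whole generic theory of `S48/G1/SurjGen.lean` applies
  to `F1 M`.
* `theta_eq_thetaK`: for ANY `O : Objs M`, `O.θ` is the generic avatar map `thetaK`.
* `Converse1 O`: the Kummer converse (a root with multiplier trivial on `parEll` gives
  `m ∣ div f` at ALL places of `F1 M`).
* `surj1_of_converse M hM O : Converse1 O → Bricks1.Surj1 O`.
-/

noncomputable section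

open scoped MatrixGroups
open CongruenceSubgroup ModularCurve AlgebraicCurve UpperHalfPlane
open Fermat.Agent.S24.HolH Fermat.Agent.S24.Theta Fermat.Agent.S24
open Fermat.Agent.S30.KummerChar
open Fermat.Agent.S48.G1.F1 Fermat.Agent.S48.G1.F1.GHol
open Fermat.Agent.S48.G1.DescentGen Fermat.Agent.S48.G1.SurjGen

namespace Fermat.Agent.S48.G1.Producer1.Surj1

/-! ### The generating system of `F1 M` -/

section Sys

variable (M : ℕ) [NeZero M]

theorem jq_mem_gens1Q : jq ∈ gens1Q M := by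
  have h := mem_divisorExpansions M (d := 1) (one_dvd M)
  rw [qExpand_one_apply] at h
  exact Or.inl h

/-- **The generators of `F1Q M` form a generating system for `(Γ₁(M), M)`** (`2 ≤ M`). -/
theorem genSys1 (hM : 2 ≤ M) : GenSys (Gamma1 M) M (gens1Q M) where
  finite := (Fermat.Agent.S24.DegreeGen.divisorExpansions_finite M).union
    (PlaceFin.eisExpansions_finite M)
  jq_mem := jq_mem_gens1Q M
  good := by
    rintro s (hs | ⟨b, rfl⟩)
    · exact Good1J.divisorExpansions_subset_goodG_Gamma1 M ⟨s, hs, rfl⟩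
    · exact Good1.gq_unit_mem_goodG M hM b
  sep := by
    intro γ h f
    have hj : compSL γ (jScale M) = jScale M := by
      have h1 := h (qExpand ℚ M jq) (Or.inl (mem_divisorExpansions M dvd_rfl))
      rw [thetaG_eq (f := ⟨coeffEmb ℂ (qExpand ℚ M jq), _⟩)
        (Good1J.isAvatar_jq_Gamma1 M dvd_rfl)] at h1
      exact h1
    have hg : compSL γ (gHol M 1) = gHol M 1 := by
      have h1 := h (gq M ((1 : (ZMod M)ˣ) : ZMod M)) (Or.inr ⟨1, rfl⟩)
      rw [thetaG_eq (f := ⟨coeffEmb ℂ (gq M ((1 : (ZMod M)ˣ) : ZMod M)), _⟩)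
        (Good1.isAvatar_gq M hM 1), Units.val_one] at h1
      exact h1
    rcases Stab1.mem_pmGamma1_of_stab M hM γ hj hg with h1 | h1
    · exact compSL_thetaG (Gamma1 M) M h1 f
    · rw [← SurjGen.compSL_neg]
      exact compSL_thetaG (Gamma1 M) M h1 f

end Sys

/-! ### `O.θ` is the generic avatar map -/

section Theta

variable {M : ℕ} [NeZero M] (hM : 2 ≤ M) (O : Objs M)

/-- An element of `A01 M` as an element of `ℚ̄[gens]`. -/
def toAdj (x : A01 M) : ↥(Algebra.adjoin Qb (⇑(coeffEmb Qb) '' gens1Q M)) :=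
  ⟨((x : F1 M) : LaurentSeries Qb), mem_A01.mp x.2⟩

theorem coe_toAdj (x : A01 M) :
    ((toAdj x : ↥(Algebra.adjoin Qb (⇑(coeffEmb Qb) '' gens1Q M))) : LaurentSeries Qb)
      = ((x : F1 M) : LaurentSeries Qb) := rfl

/-- **`O.θ` is the generic avatar map** of the generating system `genSys1`. -/
theorem theta_eq_thetaK (x : A01 M) :
    O.θ x = (genSys1 M hM).thetaK iotaBar (toAdj x) := by
  apply Subtype.ext
  have h1 : QB.HasQExpK iotaBar M (qExpand Qb M ((x : F1 M) : LaurentSeries Qb))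
      ((O.θ x : HolH) : ℍ → ℂ) := (hasQ_iff_hasQExpK.mp (O.hasQ x)).qExpand_one M
  have h2 := Fermat.Agent.S30.DescentInst.hasQExpK_coeffMap iotaBar h1
  rw [Fermat.Agent.S24.PolyJGlue.coeffMap_qExpand] at h2
  exact h2.fun_unique ((genSys1 M hM).isAvatar_thetaK iotaBar (toAdj x)).1

end Theta

/-! ### The brick `Surj1` -/

section Surj

variable {M : ℕ} [NeZero M]

/-- Upper triangular elements of `Γ₁(M)` have `tr² = 4`. -/
theorem mem_parEll_of_lower_left_eq_zero (γ : Gamma1 M)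
    (h : ((γ : SL(2, ℤ)) : Matrix (Fin 2) (Fin 2) ℤ) 1 0 = 0) :
    γ ∈ Fermat.Agent.S48.Betti1.parEll (Gamma1 M) := by
  show ((γ : SL(2, ℤ)) : Matrix (Fin 2) (Fin 2) ℤ).trace ^ 2 ≤ 4
  have hdet : (γ : SL(2, ℤ)) 0 0 * (γ : SL(2, ℤ)) 1 1
      - (γ : SL(2, ℤ)) 0 1 * (γ : SL(2, ℤ)) 1 0 = 1 := by
    have := (γ : SL(2, ℤ)).det_coe
    rwa [Matrix.det_fin_two] at this
  have h' : (γ : SL(2, ℤ)) 1 0 = 0 := h
  rw [h', mul_zero, sub_zero] at hdet
  rw [Matrix.trace_fin_two]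
  rcases Int.eq_one_or_neg_one_of_mul_eq_one' hdet with ⟨h0, h1⟩ | ⟨h0, h1⟩
  · have e0 : ((γ : SL(2, ℤ)) : Matrix (Fin 2) (Fin 2) ℤ) 0 0 = 1 := h0
    have e1 : ((γ : SL(2, ℤ)) : Matrix (Fin 2) (Fin 2) ℤ) 1 1 = 1 := h1
    rw [e0, e1]
    norm_num
  · have e0 : ((γ : SL(2, ℤ)) : Matrix (Fin 2) (Fin 2) ℤ) 0 0 = -1 := h0
    have e1 : ((γ : SL(2, ℤ)) : Matrix (Fin 2) (Fin 2) ℤ) 1 1 = -1 := h1
    rw [e0, e1]
    norm_num

/-- **The Kummer converse at level `Γ₁(M)`**: if `f = a / b` has a holomorphic `m`-th root whose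
multiplier is trivial on the parabolic and elliptic elements of `Γ₁(M)`, then `m ∣ div f` at
every place of `F1 M`. -/
def Converse1 (O : Objs M) : Prop :=
  ∀ (m : ℕ), 0 < m → ∀ (f : F1 M) (a b : A01 M) (H : HolH), a ≠ 0 → b ≠ 0 →
    f * (b : F1 M) = (a : F1 M) → IsRoot1 O m a b H →
    (∀ γ : Gamma1 M, γ ∈ Fermat.Agent.S48.Betti1.parEll (Gamma1 M) →
      mult (γ : SL(2, ℤ)) H = 1) →
    DivBy1 M m f

/-- **`Surj1` from the Kummer converse.**  Every `μ_m`-valued character of `Γ₁(M)` trivial on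
parabolic and elliptic elements is the Kummer character of a function of `F1 M` with
`m ∣ div f`. -/
theorem surj1_of_converse (hM : 2 ≤ M) (O : Objs M) (hconv : Converse1 O) : Bricks1.Surj1 O := by
  intro m hm φ hφm hφpe
  have hpar : ∀ γ : Gamma1 M, ((γ : SL(2, ℤ)) : Matrix (Fin 2) (Fin 2) ℤ) 1 0 = 0 → φ γ = 1 :=
    fun γ hγ => hφpe γ (mem_parEll_of_lower_left_eq_zero γ hγ)
  obtain ⟨y, a, b, H, hy, hym, ha, hb, hab, -, hH, hHm, hmul⟩ :=
    (genSys1 M hM).exists_kummerRoot (Fermat.Agent.S48.G1.EisGen.Gamma_le_Gamma1 M)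
      (Fermat.Agent.S48.G1.EisGen.T_mem_Gamma1 M) iotaBar hm φ hφm hpar
  have hfmem : y ^ m ∈ F1 M := by
    rw [F1_eq_adjoin]
    exact hym
  have hroot : IsRoot1 O m (mkA01 a.1 a.2) (mkA01 b.1 b.2) H := by
    unfold IsRoot1
    rw [theta_eq_thetaK hM O, theta_eq_thetaK hM O]
    exact hHm
  have hmult : ∀ γ : Gamma1 M, mult (γ : SL(2, ℤ)) H = (φ γ : ℂ) := fun γ =>
    mult_eq_of_eq hH (by rw [hmul γ, Algebra.smul_def])
  have ha' : (mkA01 a.1 a.2 : A01 M) ≠ 0 := by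
    intro h0
    apply ha
    have h1 := congrArg (fun x : A01 M => ((x : F1 M) : LaurentSeries Qb)) h0
    exact Subtype.ext h1
  have hb' : (mkA01 b.1 b.2 : A01 M) ≠ 0 := by
    intro h0
    apply hb
    have h1 := congrArg (fun x : A01 M => ((x : F1 M) : LaurentSeries Qb)) h0
    exact Subtype.ext h1
  have hfab : (⟨y ^ m, hfmem⟩ : F1 M) * ((mkA01 b.1 b.2 : A01 M) : F1 M)
      = ((mkA01 a.1 a.2 : A01 M) : F1 M) := Subtype.ext hab
  refine ⟨⟨y ^ m, hfmem⟩, mkA01 a.1 a.2, mkA01 b.1 b.2, H, ?_, ?_, ha', hb', hfab, hroot, hmult⟩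
  · intro h0
    have h1 := congrArg (fun x : F1 M => (x : LaurentSeries Qb)) h0
    exact pow_ne_zero m hy h1
  · refine hconv m hm _ _ _ H ha' hb' hfab hroot fun γ hγ => ?_
    rw [hmult γ, hφpe γ hγ]
    rfl

end Surj

end Fermat.Agent.S48.G1.Producer1.Surj1

end
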